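import Mathlib
import Fermat.Prelude.Def_GaloisRep_Adic

/-!
# Dictionary between `GaloisRepAdic` and matrix representations
-/

set_option autoImplicit false

namespace Fermat.Agent.DefRing

open IsLocalRing Module
open scoped TensorProduct

/-- the absolute Galois group of `ℚ`. -/
abbrev GQ := AlgebraicClosure ℚ ≃ₐ[ℚ] AlgebraicClosure ℚ

/-- two by two matrices -/
abbrev M2 (A : Type) := Matrix (Fin 2) (Fin 2) A

/-- adic continuity of a matrix representation -/
def MatCont (A : Type) [CommRing A] [IsLocalRing A] (r : GQ →* M2 A) : Prop :=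
  ∀ n : ℕ, ∃ L : IntermediateField ℚ (AlgebraicClosure ℚ), FiniteDimensional ℚ L ∧
    ∀ σ : GQ, (∀ x ∈ L, σ x = x) → ∀ i j, (r σ - 1) i j ∈ maximalIdeal A ^ n

lemma repr_mem_of_mem_smul_top {A V : Type} [CommRing A] [AddCommGroup V] [Module A V]
    {ι : Type} (b : Basis ι A V) (I : Ideal A) {w : V} (hw : w ∈ I • (⊤ : Submodule A V)) (i : ι) :
    b.repr w i ∈ I := by
  refine Submodule.smul_induction_on (p := fun w => b.repr w i ∈ I) hw ?_ ?_
  · intro a ha v _
    simp only [map_smul, Finsupp.smul_apply, smul_eq_mul]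
    exact I.mul_mem_right _ ha
  · intro x y hx hy
    simp only [map_add, Finsupp.add_apply]
    exact I.add_mem hx hy

lemma mem_smul_top_of_repr_mem {A V : Type} [CommRing A] [AddCommGroup V] [Module A V]
    {ι : Type} [Fintype ι] (b : Basis ι A V) (I : Ideal A) {w : V}
    (hw : ∀ i, b.repr w i ∈ I) : w ∈ I • (⊤ : Submodule A V) := by
  rw [← b.sum_repr w]
  exact Submodule.sum_mem _ fun i _ => Submodule.smul_mem_smul (hw i) Submodule.mem_top

section
variable {A : Type} [CommRing A] [IsLocalRing A]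

/-- the Galois representation attached to a continuous matrix representation. -/
noncomputable def ofMat (r : GQ →* M2 A) (hc : MatCont A r) : GaloisRepAdic A where
  V := Fin 2 → A
  finrank_eq := by simp
  ρ := ((Matrix.toLinAlgEquiv' : M2 A ≃ₐ[A] ((Fin 2 → A) →ₗ[A] (Fin 2 → A))) :
    M2 A →* ((Fin 2 → A) →ₗ[A] (Fin 2 → A))).comp r
  isAdicContinuous := by
    intro n
    obtain ⟨L, hL, h⟩ := hc n
    refine ⟨L, hL, fun σ hσ v => ?_⟩
    apply mem_smul_top_of_repr_mem (Pi.basisFun A (Fin 2))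
    intro i
    have : ((Matrix.toLinAlgEquiv' (r σ) : (Fin 2 → A) →ₗ[A] (Fin 2 → A)) v - v) i =
        ∑ j, (r σ - 1) i j * v j := by
      rw [Matrix.toLinAlgEquiv'_apply, Pi.sub_apply, Matrix.mulVec, dotProduct]
      simp only [Matrix.sub_apply, sub_mul, Finset.sum_sub_distrib, Matrix.one_apply, ite_mul,
        one_mul, zero_mul, Finset.sum_ite_eq, Finset.mem_univ, if_true]
    simp only [Pi.basisFun_repr, MonoidHom.comp_apply]
    erw [this]
    exact Ideal.sum_mem _ fun j _ => Ideal.mul_mem_right _ _ (h σ hσ i j)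

/-- the matrix representation of `ρ` in a basis -/
noncomputable def matOf (ρ : GaloisRepAdic A) (b : Basis (Fin 2) A ρ.V) : GQ →* M2 A :=
  ((LinearMap.toMatrixAlgEquiv b : (ρ.V →ₗ[A] ρ.V) ≃ₐ[A] M2 A) :
    (ρ.V →ₗ[A] ρ.V) →* M2 A).comp ρ.ρ

lemma matOf_apply (ρ : GaloisRepAdic A) (b : Basis (Fin 2) A ρ.V) (σ : GQ) :
    matOf ρ b σ = LinearMap.toMatrixAlgEquiv b (ρ.ρ σ) := rfl

lemma matOf_cont (ρ : GaloisRepAdic A) (b : Basis (Fin 2) A ρ.V) : MatCont A (matOf ρ b) := by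
  intro n
  obtain ⟨L, hL, h⟩ := ρ.isAdicContinuous n
  refine ⟨L, hL, fun σ hσ i j => ?_⟩
  have h1 := repr_mem_of_mem_smul_top b _ (h σ hσ (b j)) i
  have h2 : (matOf ρ b σ - 1) i j = b.repr (ρ.ρ σ (b j) - b j) i := by
    rw [matOf_apply, Matrix.sub_apply, LinearMap.toMatrixAlgEquiv_apply]
    simp [Matrix.one_apply, Finsupp.single_apply, eq_comm]
  rw [h2]; exact h1

/-- every representation is equivalent to a matrix representation. -/
lemma isEquiv_ofMat (ρ : GaloisRepAdic A) (b : Basis (Fin 2) A ρ.V) :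
    ρ.IsEquiv (ofMat (matOf ρ b) (matOf_cont ρ b)) := by
  refine ⟨⟨b.equivFun, fun σ x => ?_⟩⟩
  have := LinearMap.toMatrix_mulVec_repr b b (ρ.ρ σ) x
  exact this.symm

lemma exists_basis (ρ : GaloisRepAdic A) : Nonempty (Basis (Fin 2) A ρ.V) :=
  ⟨Module.finBasisOfFinrankEq A ρ.V ρ.finrank_eq⟩

/-- Equivalence in terms of matrices. -/
lemma isEquiv_iff (ρ ρ' : GaloisRepAdic A) (b : Basis (Fin 2) A ρ.V) (b' : Basis (Fin 2) A ρ'.V) :
    ρ.IsEquiv ρ' ↔ ∃ X : M2 A, IsUnit X ∧ ∀ σ, X * matOf ρ b σ = matOf ρ' b' σ * X := by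
  constructor
  · rintro ⟨e⟩
    refine ⟨LinearMap.toMatrix b b' e.toLinearEquiv, ?_, fun σ => ?_⟩
    · have h1 : LinearMap.toMatrix b b' e.toLinearEquiv * LinearMap.toMatrix b' b e.toLinearEquiv.symm = 1 := by
        rw [← LinearMap.toMatrix_comp]; simp
      exact IsUnit.of_mul_eq_one _ h1
    · have h1 : (e.toLinearEquiv : ρ.V →ₗ[A] ρ'.V).comp (ρ.ρ σ) =
          (ρ'.ρ σ).comp (e.toLinearEquiv : ρ.V →ₗ[A] ρ'.V) := by
        ext x; exact e.map_apply σ x
      have h2 := congrArg (LinearMap.toMatrix b b') h1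
      rw [LinearMap.toMatrix_comp b b b', LinearMap.toMatrix_comp b b' b'] at h2
      exact h2
  · rintro ⟨X, hX, h⟩
    let f : ρ.V →ₗ[A] ρ'.V := Matrix.toLin b b' X
    have hf : LinearMap.toMatrix b b' f = X := LinearMap.toMatrix_toLin b b' X
    obtain ⟨u, rfl⟩ := hX
    let e : ρ.V ≃ₗ[A] ρ'.V := LinearEquiv.ofLinearMap f (Matrix.toLin b' b (↑u⁻¹ : M2 A))
      (by rw [← Matrix.toLin_mul]; simp)
      (by rw [← Matrix.toLin_mul]; simp)
    refine ⟨⟨e, fun σ x => ?_⟩⟩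
    have h1 : f.comp (ρ.ρ σ) = (ρ'.ρ σ).comp f := by
      apply (LinearMap.toMatrix b b').injective
      rw [LinearMap.toMatrix_comp b b b', LinearMap.toMatrix_comp b b' b', hf]
      exact h σ
    exact LinearMap.congr_fun h1 x

lemma matOf_ofMat (r : GQ →* M2 A) (hc : MatCont A r) :
    matOf (ofMat r hc) (Pi.basisFun A (Fin 2)) = r := by
  ext1 σ
  rw [matOf_apply]
  exact LinearMap.toMatrixAlgEquiv'_toLinAlgEquiv' (r σ)

lemma ofMat_isEquiv_iff (r r' : GQ →* M2 A) (hc : MatCont A r) (hc' : MatCont A r') :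
    (ofMat r hc).IsEquiv (ofMat r' hc') ↔ ∃ X : M2 A, IsUnit X ∧ ∀ σ, X * r σ = r' σ * X := by
  rw [isEquiv_iff _ _ (Pi.basisFun A (Fin 2)) (Pi.basisFun A (Fin 2)), matOf_ofMat, matOf_ofMat]

end

section baseChange

variable {A B : Type} [CommRing A] [IsLocalRing A] [CommRing B] [IsLocalRing B]

/-- push-forward of a matrix representation along a ring hom. -/
noncomputable def mapRep (φ : A →+* B) (r : GQ →* M2 A) : GQ →* M2 B :=
  (φ.mapMatrix : M2 A →+* M2 B).toMonoidHom.comp r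

omit [IsLocalRing A] [IsLocalRing B] in
lemma mapRep_apply (φ : A →+* B) (r : GQ →* M2 A) (σ : GQ) (i j : Fin 2) :
    mapRep φ r σ i j = φ (r σ i j) := rfl

lemma mapRep_cont (φ : A →+* B) (hφ : IsLocalHom φ) (r : GQ →* M2 A) (hc : MatCont A r) :
    MatCont B (mapRep φ r) := by
  intro n
  obtain ⟨L, hL, h⟩ := hc n
  refine ⟨L, hL, fun σ hσ i j => ?_⟩
  have hmap : (maximalIdeal A ^ n).map φ ≤ maximalIdeal B ^ n := by
    rw [Ideal.map_pow]
    exact Ideal.pow_right_mono (Ideal.map_le_iff_le_comap.mpr fun a ha =>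
      Ideal.mem_comap.mpr (haveI := hφ; map_nonunit φ a ha)) n
  have h1 : (mapRep φ r σ - 1) i j = φ ((r σ - 1) i j) := by
    rw [Matrix.sub_apply, Matrix.sub_apply, map_sub, mapRep_apply]
    congr 1
    simp only [Matrix.one_apply]
    split_ifs <;> simp
  rw [h1]
  exact hmap (Ideal.mem_map_of_mem φ (h σ hσ i j))

lemma matOf_baseChange (φ : A →+* B) (hφ : IsLocalHom φ) (ρ : GaloisRepAdic A)
    (b : Basis (Fin 2) A ρ.V) :
    matOf (ρ.baseChangeAlong φ hφ) (letI := φ.toAlgebra; Algebra.TensorProduct.basis B b) = mapRep φ (matOf ρ b) := by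
  let := φ.toAlgebra
  ext1 σ
  have h1 := LinearMap.toMatrix_baseChange B (ρ.ρ σ) b b
  exact h1

lemma ofMat_baseChange (φ : A →+* B) (hφ : IsLocalHom φ) (r : GQ →* M2 A) (hc : MatCont A r) :
    ((ofMat r hc).baseChangeAlong φ hφ).IsEquiv (ofMat (mapRep φ r) (mapRep_cont φ hφ r hc)) := by
  let := φ.toAlgebra
  rw [isEquiv_iff _ _ (Algebra.TensorProduct.basis B (Pi.basisFun A (Fin 2))) (Pi.basisFun B (Fin 2))]
  refine ⟨1, isUnit_one, fun σ => ?_⟩
  rw [matOf_ofMat, one_mul, mul_one]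
  have := matOf_baseChange φ hφ (ofMat r hc) (Pi.basisFun A (Fin 2))
  rw [matOf_ofMat] at this
  exact DFunLike.congr_fun this σ

lemma baseChange_congr (φ : A →+* B) (hφ : IsLocalHom φ) {ρ ρ' : GaloisRepAdic A}
    (h : ρ.IsEquiv ρ') : (ρ.baseChangeAlong φ hφ).IsEquiv (ρ'.baseChangeAlong φ hφ) := by
  obtain ⟨e⟩ := h
  exact ⟨e.baseChangeAlong φ hφ⟩

end baseChange

lemma isEquiv_refl {A : Type} [CommRing A] [IsLocalRing A] (ρ : GaloisRepAdic A) : ρ.IsEquiv ρ :=
  ⟨GaloisRepAdic.Equiv.refl ρ⟩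

lemma isEquiv_symm {A : Type} [CommRing A] [IsLocalRing A] {ρ ρ' : GaloisRepAdic A}
    (h : ρ.IsEquiv ρ') : ρ'.IsEquiv ρ := h.map fun e => e.symm

lemma isEquiv_trans {A : Type} [CommRing A] [IsLocalRing A] {ρ ρ' ρ'' : GaloisRepAdic A}
    (h : ρ.IsEquiv ρ') (h' : ρ'.IsEquiv ρ'') : ρ.IsEquiv ρ'' := by
  obtain ⟨e⟩ := h; obtain ⟨e'⟩ := h'; exact ⟨e.trans e'⟩

section residual

/-- the matrix representation of a residual representation in a basis -/
noncomputable def matOfRes {k : Type} [Field k] (ρ : ResidualGaloisRep k)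
    (b : Basis (Fin 2) k ρ.V) : GQ →* M2 k :=
  ((LinearMap.toMatrixAlgEquiv b : (ρ.V →ₗ[k] ρ.V) ≃ₐ[k] M2 k) :
    (ρ.V →ₗ[k] ρ.V) →* M2 k).comp ρ.ρ

lemma matOfRes_apply {k : Type} [Field k] (ρ : ResidualGaloisRep k)
    (b : Basis (Fin 2) k ρ.V) (σ : GQ) :
    matOfRes ρ b σ = LinearMap.toMatrixAlgEquiv b (ρ.ρ σ) := rfl

lemma exists_basisRes {k : Type} [Field k] (ρ : ResidualGaloisRep k) :
    Nonempty (Basis (Fin 2) k ρ.V) :=
  ⟨Module.finBasisOfFinrankEq k ρ.V ρ.finrank_eq⟩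

/-- Equivalence in terms of matrices. -/
lemma res_isEquiv_iff {k : Type} [Field k] (ρ ρ' : ResidualGaloisRep k)
    (b : Basis (Fin 2) k ρ.V) (b' : Basis (Fin 2) k ρ'.V) :
    ρ.IsEquiv ρ' ↔ ∃ X : M2 k, IsUnit X ∧ ∀ σ, X * matOfRes ρ b σ = matOfRes ρ' b' σ * X := by
  constructor
  · rintro ⟨e⟩
    refine ⟨LinearMap.toMatrix b b' e.toLinearEquiv, ?_, fun σ => ?_⟩
    · have h1 : LinearMap.toMatrix b b' e.toLinearEquiv * LinearMap.toMatrix b' b e.toLinearEquiv.symm = 1 := by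
        rw [← LinearMap.toMatrix_comp]; simp
      exact IsUnit.of_mul_eq_one _ h1
    · have h1 : (e.toLinearEquiv : ρ.V →ₗ[k] ρ'.V).comp (ρ.ρ σ) =
          (ρ'.ρ σ).comp (e.toLinearEquiv : ρ.V →ₗ[k] ρ'.V) := by
        ext x; exact e.map_apply σ x
      have h2 := congrArg (LinearMap.toMatrix b b') h1
      rw [LinearMap.toMatrix_comp b b b', LinearMap.toMatrix_comp b b' b'] at h2
      exact h2
  · rintro ⟨X, hX, h⟩
    let f : ρ.V →ₗ[k] ρ'.V := Matrix.toLin b b' X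
    have hf : LinearMap.toMatrix b b' f = X := LinearMap.toMatrix_toLin b b' X
    obtain ⟨u, rfl⟩ := hX
    let e : ρ.V ≃ₗ[k] ρ'.V := LinearEquiv.ofLinearMap f (Matrix.toLin b' b (↑u⁻¹ : M2 k))
      (by rw [← Matrix.toLin_mul]; simp)
      (by rw [← Matrix.toLin_mul]; simp)
    refine ⟨⟨e, fun σ x => ?_⟩⟩
    have h1 : f.comp (ρ.ρ σ) = (ρ'.ρ σ).comp f := by
      apply (LinearMap.toMatrix b b').injective
      rw [LinearMap.toMatrix_comp b b b', LinearMap.toMatrix_comp b b' b', hf]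
      exact h σ
    exact LinearMap.congr_fun h1 x

lemma matOfRes_residual {A : Type} [CommRing A] [IsLocalRing A] (ρ : GaloisRepAdic A)
    (b : Basis (Fin 2) A ρ.V) :
    matOfRes ρ.residual (Algebra.TensorProduct.basis (ResidueField A) b) = mapRep (residue A) (matOf ρ b) := by
  ext1 σ
  exact LinearMap.toMatrix_baseChange (ResidueField A) (ρ.ρ σ) b b

lemma matOfRes_baseChange {k k' : Type} [Field k] [Field k'] [Algebra k k']
    (ρ : ResidualGaloisRep k) (b : Basis (Fin 2) k ρ.V) :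
    matOfRes (ρ.baseChange k') (Algebra.TensorProduct.basis k' b) = mapRep (algebraMap k k') (matOfRes ρ b) := by
  ext1 σ
  exact LinearMap.toMatrix_baseChange k' (ρ.ρ σ) b b

/-- residual equivalence in terms of matrices. -/
lemma residual_isEquiv_iff {A k : Type} [CommRing A] [IsLocalRing A] [Field k]
    [Algebra k (ResidueField A)]
    (ρ : GaloisRepAdic A) (b : Basis (Fin 2) A ρ.V)
    (ρbar : ResidualGaloisRep k) (bbar : Basis (Fin 2) k ρbar.V) :
    ρ.residual.IsEquiv (ρbar.baseChange (ResidueField A)) ↔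
      ∃ X : M2 (ResidueField A), IsUnit X ∧ ∀ σ, X * mapRep (residue A) (matOf ρ b) σ =
        mapRep (algebraMap k (ResidueField A)) (matOfRes ρbar bbar) σ * X := by
  rw [res_isEquiv_iff _ _ (Algebra.TensorProduct.basis (ResidueField A) b) (Algebra.TensorProduct.basis (ResidueField A) bbar),
    matOfRes_residual, matOfRes_baseChange]

end residual

end Fermat.Agent.DefRing
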