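import Mathlib
import Fermat.Agent.DefRing.Mat

/-!
# Burnside's theorem in dimension two
-/

set_option autoImplicit false

namespace Fermat.Agent.DefRing

open IsLocalRing Module Matrix
open scoped TensorProduct

section burnside

variable {K : Type} [Field K] {G : Type} [Monoid G]

/-- Burnside's theorem in dimension two over an algebraically closed field. -/
theorem burnside_two [IsAlgClosed K] (r : G →* Matrix (Fin 2) (Fin 2) K)
    (hirr : ∀ W : Submodule K (Fin 2 → K), (∀ g : G, ∀ x ∈ W, (r g) *ᵥ x ∈ W) → W = ⊥ ∨ W = ⊤) :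
    Submodule.span K (Set.range r) = ⊤ := by
  set B := Submodule.span K (Set.range r) with hB
  have hmulB : ∀ g : G, ∀ N ∈ B, r g * N ∈ B := by
    intro g N hN
    induction hN using Submodule.span_induction with
    | mem x hx =>
      obtain ⟨h, rfl⟩ := hx
      exact Submodule.subset_span ⟨g * h, by rw [map_mul]⟩
    | zero => rw [mul_zero]; exact B.zero_mem
    | add x y _ _ hx hy => rw [mul_add]; exact B.add_mem hx hy
    | smul a x _ hx => rw [mul_smul_comm]; exact B.smul_mem a hx
  have hmulB' : ∀ g : G, ∀ N ∈ B, N * r g ∈ B := by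
    intro g N hN
    induction hN using Submodule.span_induction with
    | mem x hx =>
      obtain ⟨h, rfl⟩ := hx
      exact Submodule.subset_span ⟨h * g, by rw [map_mul]⟩
    | zero => rw [zero_mul]; exact B.zero_mem
    | add x y _ _ hx hy => rw [add_mul]; exact B.add_mem hx hy
    | smul a x _ hx => rw [smul_mul_assoc]; exact B.smul_mem a hx
  have h1B : (1 : Matrix (Fin 2) (Fin 2) K) ∈ B := Submodule.subset_span ⟨1, map_one r⟩
  -- no line is stable
  have hline : ∀ v : Fin 2 → K, v ≠ 0 → ∃ g, r g *ᵥ v ∉ Submodule.span K {v} := by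
    intro v hv
    by_contra hcon
    push Not at hcon
    rcases hirr (Submodule.span K {v}) (fun g x hx => by
      obtain ⟨c, rfl⟩ := Submodule.mem_span_singleton.mp hx
      rw [Matrix.mulVec_smul]
      exact Submodule.smul_mem _ c (hcon g)) with h | h
    · exact hv (Submodule.span_singleton_eq_bot.mp h)
    · have h2 := finrank_span_singleton (K := K) hv
      rw [h, finrank_top] at h2
      simp at h2
  -- a rank one element
  obtain ⟨c, hcB, hc0, hdet⟩ : ∃ c ∈ B, c ≠ 0 ∧ c.det = 0 := by
    obtain ⟨g, hg⟩ := hline ![1, 0] (by intro h; simpa using congrFun h 0)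
    obtain ⟨t, ht⟩ := IsAlgClosed.exists_root (Polynomial.X ^ 2 -
      Polynomial.C ((r g) 0 0 + (r g) 1 1) * Polynomial.X +
      Polynomial.C ((r g) 0 0 * (r g) 1 1 - (r g) 0 1 * (r g) 1 0) : Polynomial K)
      (by
        have : (Polynomial.X ^ 2 -
          Polynomial.C ((r g) 0 0 + (r g) 1 1) * Polynomial.X +
          Polynomial.C ((r g) 0 0 * (r g) 1 1 - (r g) 0 1 * (r g) 1 0) : Polynomial K).degree = 2 := by
          compute_degree!
        rw [this]; decide)
    refine ⟨r g - t • 1, B.sub_mem (Submodule.subset_span ⟨g, rfl⟩) (B.smul_mem t h1B), ?_, ?_⟩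
    · intro h0
      apply hg
      rw [Submodule.mem_span_singleton]
      refine ⟨t, ?_⟩
      rw [sub_eq_zero] at h0
      rw [h0, Matrix.smul_mulVec, Matrix.one_mulVec]
    · rw [Matrix.det_fin_two]
      simp only [Polynomial.IsRoot.def, Polynomial.eval_add, Polynomial.eval_sub,
        Polynomial.eval_pow, Polynomial.eval_X, Polynomial.eval_mul, Polynomial.eval_C] at ht
      simp only [Matrix.sub_apply, Matrix.smul_apply, Matrix.one_apply, smul_eq_mul]
      norm_num
      linear_combination ht
  -- write it as `u wᵀ`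
  obtain ⟨u, w, hu, hw, hc⟩ : ∃ u w : Fin 2 → K, u ≠ 0 ∧ w ≠ 0 ∧ c = vecMulVec u w := by
    rw [Matrix.det_fin_two] at hdet
    by_cases h0 : c 0 0 = 0 ∧ c 0 1 = 0
    · refine ⟨![0, 1], ![c 1 0, c 1 1], ?_, ?_, ?_⟩
      · intro h; simpa using congrFun h 1
      · intro h
        apply hc0
        have e0 := congrFun h 0
        have e1 := congrFun h 1
        simp at e0 e1
        ext i j
        fin_cases i <;> fin_cases j <;> simp [h0.1, h0.2, e0, e1]
      · ext i j
        fin_cases i <;> fin_cases j <;> simp [vecMulVec, h0.1, h0.2]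
    · rw [not_and_or] at h0
      rcases h0 with h0 | h0
      · refine ⟨![1, c 1 0 / c 0 0], ![c 0 0, c 0 1], ?_, ?_, ?_⟩
        · intro h; simpa using congrFun h 0
        · intro h; exact h0 (by simpa using congrFun h 0)
        · ext i j
          fin_cases i <;> fin_cases j <;> simp [vecMulVec]
          · field_simp
          · field_simp; linear_combination hdet
      · refine ⟨![1, c 1 1 / c 0 1], ![c 0 0, c 0 1], ?_, ?_, ?_⟩
        · intro h; simpa using congrFun h 0
        · intro h; exact h0 (by simpa using congrFun h 1)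
        · ext i j
          fin_cases i <;> fin_cases j <;> simp [vecMulVec]
          · field_simp; linear_combination -hdet
          · field_simp
  subst hc
  -- all `u' wᵀ` are in `B`
  have hall : ∀ w' : Fin 2 → K, (∃ u' : Fin 2 → K, u' ≠ 0 ∧ vecMulVec u' w' ∈ B) →
      ∀ u', vecMulVec u' w' ∈ B := by
    rintro w' ⟨u', hu', h'⟩
    let W : Submodule K (Fin 2 → K) :=
      { carrier := {x | vecMulVec x w' ∈ B}
        add_mem' := fun {x y} hx hy => by
          simp only [Set.mem_ofPred_eq] at *
          rw [Matrix.add_vecMulVec]; exact B.add_mem hx hy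
        zero_mem' := by simp
        smul_mem' := fun a x hx => by
          simp only [Set.mem_ofPred_eq] at *
          rw [Matrix.smul_vecMulVec]; exact B.smul_mem a hx }
    have hW : W = ⊥ ∨ W = ⊤ := hirr W (fun g x hx => by
      show vecMulVec (r g *ᵥ x) w' ∈ B
      rw [← Matrix.mul_vecMulVec]
      exact hmulB g _ hx)
    rcases hW with hW | hW
    · exact absurd (show u' ∈ (⊥ : Submodule K (Fin 2 → K)) from hW ▸ h') hu'
    · intro x
      exact (show x ∈ W from hW ▸ Submodule.mem_top)
  have hw1 := hall w ⟨u, hu, hcB⟩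
  obtain ⟨g, hg⟩ := hline ![-w 1, w 0] (by
    intro h
    apply hw
    have e0 := congrFun h 0
    have e1 := congrFun h 1
    simp at e0 e1
    ext i; fin_cases i <;> simp [e0, e1])
  set w2 := w ᵥ* r g with hw2
  have hw2' : ∀ u', vecMulVec u' w2 ∈ B := by
    intro u'
    rw [hw2, ← Matrix.vecMulVec_mul]
    exact hmulB' g _ (hw1 u')
  have hd : w 0 * w2 1 - w 1 * w2 0 ≠ 0 := by
    intro hd
    apply hg
    have hw2_0 : w2 0 = w 0 * r g 0 0 + w 1 * r g 1 0 := by
      simp [hw2, Matrix.vecMul, dotProduct, Fin.sum_univ_two]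
    have hw2_1 : w2 1 = w 0 * r g 0 1 + w 1 * r g 1 1 := by
      simp [hw2, Matrix.vecMul, dotProduct, Fin.sum_univ_two]
    rw [hw2_0, hw2_1] at hd
    rw [Submodule.mem_span_singleton]
    by_cases h0 : w 0 = 0
    · have h1 : w 1 ≠ 0 := by
        intro h1; apply hw; ext i; fin_cases i <;> simp [h0, h1]
      refine ⟨r g 0 0, ?_⟩
      have h10 : r g 1 0 = 0 := by
        rw [h0] at hd
        have : w 1 * (w 1 * r g 1 0) = 0 := by linear_combination -hd
        simpa [h1] using this
      ext i
      fin_cases i <;> simp [Matrix.mulVec, dotProduct, h0, h10]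
    · refine ⟨(-(r g 1 0 * w 1) + r g 1 1 * w 0) / w 0, ?_⟩
      ext i
      fin_cases i
      · simp [Matrix.mulVec, dotProduct]
        field_simp
        linear_combination -hd
      · simp [Matrix.mulVec, dotProduct]
        field_simp
  rw [eq_top_iff]
  intro N _
  obtain ⟨D, hD⟩ : ∃ D, D = w 0 * w2 1 - w 1 * w2 0 := ⟨_, rfl⟩
  rw [← hD] at hd
  have : N = vecMulVec (fun i => (N i 0 * w2 1 - N i 1 * w2 0) / D) w +
      vecMulVec (fun i => (N i 1 * w 0 - N i 0 * w 1) / D) w2 := by
    ext i j
    simp only [Matrix.add_apply, vecMulVec_apply]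
    fin_cases j
    · simp only [Fin.zero_eta]
      field_simp
      rw [hD]
      ring
    · simp only [Fin.mk_one]
      field_simp
      rw [hD]
      ring
  rw [this]
  exact B.add_mem (hw1 _) (hw2' _)

/-- descent of the span along a field extension. -/
theorem span_descent {k K : Type} [Field k] [Field K] [Algebra k K] {ι : Type}
    (s : ι → Matrix (Fin 2) (Fin 2) k)
    (h : Submodule.span K (Set.range fun i => (s i).map (algebraMap k K)) = ⊤) :
    Submodule.span k (Set.range s) = ⊤ := by
  by_contra hne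
  obtain ⟨f, hf0, hf⟩ := Submodule.exists_le_ker_of_lt_top _ (lt_top_iff_ne_top.mpr hne)
  apply hf0
  let F : Matrix (Fin 2) (Fin 2) K →ₗ[K] K :=
    ∑ i, ∑ j, (algebraMap k K (f (Matrix.single i j 1))) • Matrix.entryLinearMap K K i j
  have hF : ∀ N : Matrix (Fin 2) (Fin 2) k, F (N.map (algebraMap k K)) = algebraMap k K (f N) := by
    intro N
    have hN : f N = ∑ i, ∑ j, N i j * f (Matrix.single i j 1) := by
      conv_lhs => rw [Matrix.matrix_eq_sum_single N]
      simp only [map_sum]
      refine Finset.sum_congr rfl fun i _ => Finset.sum_congr rfl fun j _ => ?_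
      rw [← smul_eq_mul, ← map_smul, Matrix.smul_single, smul_eq_mul, mul_one]
    rw [hN]
    simp [F, LinearMap.sum_apply, Matrix.entryLinearMap_apply, mul_comm, Algebra.smul_def]
  have hF0 : F = 0 := by
    have h1 : (⊤ : Submodule K (Matrix (Fin 2) (Fin 2) K)) ≤ LinearMap.ker F := by
      rw [← h, Submodule.span_le]
      rintro _ ⟨i, rfl⟩
      rw [SetLike.mem_coe, LinearMap.mem_ker, hF, LinearMap.mem_ker.mp (hf (Submodule.subset_span ⟨i, rfl⟩)),
        map_zero]
    exact LinearMap.ker_eq_top.mp (top_le_iff.mp h1)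
  ext1 N
  have := hF N
  rw [hF0, LinearMap.zero_apply] at this
  rw [LinearMap.zero_apply]
  exact (FaithfulSMul.algebraMap_injective k K (by rw [map_zero]; exact this)).symm

end burnside

/-- the image of an absolutely irreducible residual representation spans the matrix algebra. -/
theorem span_matOfRes {k : Type} [Field k] (ρbar : ResidualGaloisRep k)
    (habs : ρbar.IsAbsolutelyIrreducible) (b : Basis (Fin 2) k ρbar.V) :
    Submodule.span k (Set.range (matOfRes ρbar b)) = ⊤ := by
  apply span_descent (K := AlgebraicClosure k)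
  have key := burnside_two (mapRep (algebraMap k (AlgebraicClosure k)) (matOfRes ρbar b)) ?_
  · exact key
  intro W hW
  let e : (AlgebraicClosure k ⊗[k] ρbar.V) ≃ₗ[AlgebraicClosure k] (Fin 2 → AlgebraicClosure k) :=
    (Algebra.TensorProduct.basis (AlgebraicClosure k) b).equivFun
  have he : ∀ (σ : GQ) (x : AlgebraicClosure k ⊗[k] ρbar.V),
      e (((ρbar.ρ σ).baseChange (AlgebraicClosure k)) x) =
        (mapRep (algebraMap k (AlgebraicClosure k)) (matOfRes ρbar b) σ) *ᵥ (e x) := by
    intro σ x
    have h1 := LinearMap.toMatrix_mulVec_repr (Algebra.TensorProduct.basis (AlgebraicClosure k) b)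
      (Algebra.TensorProduct.basis (AlgebraicClosure k) b)
      ((ρbar.ρ σ).baseChange (AlgebraicClosure k)) x
    rw [LinearMap.toMatrix_baseChange] at h1
    exact h1.symm
  have h2 := habs (W.comap (e : (AlgebraicClosure k ⊗[k] ρbar.V) →ₗ[AlgebraicClosure k] _))
    (fun σ x hx => by
      rw [Submodule.mem_comap] at hx ⊢
      have h3 := hW σ _ hx
      rw [LinearEquiv.coe_coe] at h3 ⊢
      rw [← he] at h3
      exact h3)
  rcases h2 with h2 | h2
  · left
    rw [eq_bot_iff]
    intro x hx
    have : e.symm x ∈ W.comap (e : (AlgebraicClosure k ⊗[k] ρbar.V) →ₗ[AlgebraicClosure k] _) := by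
      rw [Submodule.mem_comap, LinearEquiv.coe_coe, LinearEquiv.apply_symm_apply]; exact hx
    rw [h2, Submodule.mem_bot] at this
    simpa using this
  · right
    rw [eq_top_iff]
    intro x _
    have : e.symm x ∈ W.comap (e : (AlgebraicClosure k ⊗[k] ρbar.V) →ₗ[AlgebraicClosure k] _) := by
      rw [h2]; trivial
    rw [Submodule.mem_comap, LinearEquiv.coe_coe, LinearEquiv.apply_symm_apply] at this
    exact this

end Fermat.Agent.DefRing
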