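import Mathlib
import Fermat.Prelude.Thm_IsAdicComplete_of_module_finite

/-!
# Construction of a complete noetherian local ring as a limit
-/

set_option autoImplicit false

namespace Fermat.Agent.DefRing

open IsLocalRing

/-- successive approximation lemma -/
theorem exists_approx {S : Type} [CommRing S] (I : Ideal S) [IsAdicComplete I S]
    (K : ℕ → Ideal S) (hIK : ∀ n, I ^ n ≤ K n) (hanti : ∀ n, K (n + 1) ≤ K n)
    (hstep : ∀ n, K n ≤ K (n + 1) ⊔ I ^ n) (s : ℕ → S) (hs : ∀ n, s (n + 1) - s n ∈ K n)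
    (n₀ : ℕ) (t₀ : S) (ht₀ : t₀ - s n₀ ∈ K n₀) :
    ∃ t, (∀ n, t - s n ∈ K n) ∧ t - t₀ ∈ I ^ n₀ := by
  have hanti' : Antitone K := antitone_nat_of_succ_le hanti
  -- recursion
  have step : ∀ (j : ℕ) (t : S), ∃ t' : S, t - s (n₀ + j) ∈ K (n₀ + j) →
      (t' - s (n₀ + (j + 1)) ∈ K (n₀ + (j + 1)) ∧ t' - t ∈ I ^ (n₀ + j)) := by
    intro j t
    by_cases h : t - s (n₀ + j) ∈ K (n₀ + j)
    · have h1 : t - s (n₀ + (j + 1)) ∈ K (n₀ + j) := by
        have := hs (n₀ + j)
        have e : t - s (n₀ + (j + 1)) = (t - s (n₀ + j)) - (s (n₀ + j + 1) - s (n₀ + j)) := by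
          rw [← add_assoc]; ring
        rw [e]
        exact Ideal.sub_mem _ h this
      obtain ⟨κ, hκ, ι, hι, hsum⟩ := Submodule.mem_sup.mp (hstep (n₀ + j) h1)
      refine ⟨t - ι, fun _ => ⟨?_, ?_⟩⟩
      · have : t - ι - s (n₀ + (j + 1)) = κ := by linear_combination -hsum
        rw [this]; exact hκ
      · have : t - ι - t = -ι := by ring
        rw [this]; exact (Ideal.neg_mem_iff _).mpr hι
    · exact ⟨t, fun h' => absurd h' h⟩
  choose next hnext using step
  let T : ℕ → S := fun j => Nat.rec t₀ (fun j t => next j t) j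
  have hT0 : T 0 = t₀ := rfl
  have hTs : ∀ j, T (j + 1) = next j (T j) := fun j => rfl
  have hT1 : ∀ j, T j - s (n₀ + j) ∈ K (n₀ + j) := by
    intro j
    induction j with
    | zero => exact ht₀
    | succ j ih => rw [hTs]; exact (hnext j _ ih).1
  have hT2 : ∀ j, T (j + 1) - T j ∈ I ^ (n₀ + j) := fun j => by
    rw [hTs]; exact (hnext j _ (hT1 j)).2
  let f : ℕ → S := fun j => T (j - n₀)
  have hf1 : ∀ j, f (j + 1) - f j ∈ I ^ j := by
    intro j
    by_cases hj : n₀ ≤ j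
    · have e : j + 1 - n₀ = (j - n₀) + 1 := by omega
      simp only [f, e]
      have := hT2 (j - n₀)
      have e2 : n₀ + (j - n₀) = j := by omega
      rwa [e2] at this
    · have e1 : j + 1 - n₀ = 0 := by omega
      have e2 : j - n₀ = 0 := by omega
      simp only [f, e1, e2, sub_self]
      exact Ideal.zero_mem _
  have hf2 : ∀ {m n : ℕ}, m ≤ n → f m ≡ f n [SMOD (I ^ m • ⊤ : Submodule S S)] := by
    intro m n hmn
    rw [SModEq.sub_mem, smul_eq_mul, Ideal.mul_top]
    induction n, hmn using Nat.le_induction with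
    | base => rw [sub_self]; exact Ideal.zero_mem _
    | succ n hmn ih =>
      have e : f m - f (n + 1) = (f m - f n) - (f (n + 1) - f n) := by ring
      rw [e]
      exact Ideal.sub_mem _ ih (Ideal.pow_le_pow_right hmn (hf1 n))
  obtain ⟨L, hL⟩ := IsPrecomplete.prec' (I := I) f hf2
  have hL' : ∀ n, L - f n ∈ I ^ n := by
    intro n
    have := (hL n).symm
    rw [SModEq.sub_mem, smul_eq_mul, Ideal.mul_top] at this
    exact this
  have hbig : ∀ n, n₀ ≤ n → L - s n ∈ K n := by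
    intro n hn
    have h1 := hT1 (n - n₀)
    have e2 : n₀ + (n - n₀) = n := by omega
    rw [e2] at h1
    have e : L - s n = (L - f n) + (T (n - n₀) - s n) := by simp only [f]; ring
    rw [e]
    exact Ideal.add_mem _ (hIK n (hL' n)) h1
  refine ⟨L, fun n => ?_, ?_⟩
  · by_cases hn : n₀ ≤ n
    · exact hbig n hn
    · push Not at hn
      have h1 : L - s n₀ ∈ K n := hanti' hn.le (hbig n₀ le_rfl)
      have h2 : s n₀ - s n ∈ K n := by
        have : ∀ m, n ≤ m → s m - s n ∈ K n := by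
          intro m hm
          induction m, hm using Nat.le_induction with
          | base => rw [sub_self]; exact Ideal.zero_mem _
          | succ m hm ih =>
            have e : s (m + 1) - s n = (s (m + 1) - s m) + (s m - s n) := by ring
            rw [e]
            exact Ideal.add_mem _ (hanti' hm (hs m)) ih
        exact this n₀ hn.le
      have e : L - s n = (L - s n₀) + (s n₀ - s n) := by ring
      rw [e]; exact Ideal.add_mem _ h1 h2
  · have := hL' n₀
    have e : f n₀ = t₀ := by simp only [f, Nat.sub_self]; rfl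
    rwa [e] at this

/-- the evaluation map -/
theorem exists_theta {𝒪 F : Type} [CommRing 𝒪] [CommRing F] [Algebra 𝒪 F]
    (M : Ideal F) (J : ℕ → Ideal F) (hMJ : ∀ n, M ^ n ≤ J n) (hanti : ∀ n, J (n + 1) ≤ J n)
    {m : ℕ} (y : Fin m → F) (hy : ∀ i, y i ∈ M) :
    ∃ θ : ∀ n, MvPowerSeries (Fin m) 𝒪 →+* F ⧸ J n,
      (∀ n (p : MvPolynomial (Fin m) 𝒪), θ n (p : MvPowerSeries (Fin m) 𝒪) =
        Ideal.Quotient.mk (J n) (MvPolynomial.aeval y p)) ∧
      (∀ n s, θ (n + 1) s = 0 → θ n s = 0) ∧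
      (∀ n s, ∃ p : MvPolynomial (Fin m) 𝒪, θ (n + 1) s = θ (n + 1) p ∧ θ n s = θ n p) := by
  have hI : ∀ n, (MvPolynomial.idealOfVars (Fin m) 𝒪) ^ n ≤
      (J n).comap (MvPolynomial.aeval y : MvPolynomial (Fin m) 𝒪 →ₐ[𝒪] F) := by
    intro n
    rw [← Ideal.map_le_iff_le_comap, Ideal.map_pow]
    refine le_trans (Ideal.pow_right_mono ?_ n) (hMJ n)
    rw [Ideal.map_le_iff_le_comap, MvPolynomial.idealOfVars, Ideal.span_le]
    rintro _ ⟨i, rfl⟩
    simp [hy i]
  let θ : ∀ n, MvPowerSeries (Fin m) 𝒪 →+* F ⧸ J n := fun n =>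
    (Ideal.quotientMap (J n) ((MvPolynomial.aeval y : MvPolynomial (Fin m) 𝒪 →ₐ[𝒪] F) :
      MvPolynomial (Fin m) 𝒪 →+* F) (hI n)).comp
      (MvPowerSeries.truncTotalAlgHom (Fin m) 𝒪 n).toRingHom
  have h1 : ∀ n (s : MvPowerSeries (Fin m) 𝒪), θ n s =
      Ideal.Quotient.mk (J n) (MvPolynomial.aeval y (MvPowerSeries.truncTotal n s)) := by
    intro n s; rfl
  have h2 : ∀ n (p : MvPolynomial (Fin m) 𝒪), θ n (p : MvPowerSeries (Fin m) 𝒪) =
        Ideal.Quotient.mk (J n) (MvPolynomial.aeval y p) := by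
    intro n p
    have e1 : (MvPowerSeries.truncTotalAlgHom (Fin m) 𝒪 n) (p : MvPowerSeries (Fin m) 𝒪) =
      Ideal.Quotient.mk _ p := (MvPowerSeries.truncTotalAlgHom (Fin m) 𝒪 n).commutes p
    show Ideal.quotientMap (J n) ((MvPolynomial.aeval y : MvPolynomial (Fin m) 𝒪 →ₐ[𝒪] F) :
      MvPolynomial (Fin m) 𝒪 →+* F) (hI n) ((MvPowerSeries.truncTotalAlgHom (Fin m) 𝒪 n) (p : MvPowerSeries (Fin m) 𝒪)) = _
    rw [e1, Ideal.quotientMap_mk]; rfl
  have h3 : ∀ n s, θ n s = θ n (MvPowerSeries.truncTotal (n + 1) s : MvPolynomial (Fin m) 𝒪) := by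
    intro n s
    rw [h1, h2, Ideal.Quotient.mk_eq_mk_iff_sub_mem, ← map_sub]
    apply hI n
    exact MvPowerSeries.truncTotal_sub_truncTotal_mem_pow_idealOfVars le_rfl (Nat.le_succ n) s
  refine ⟨θ, h2, ?_, ?_⟩
  · intro n s hs
    rw [h1, Ideal.Quotient.eq_zero_iff_mem] at hs
    rw [h3, h2, Ideal.Quotient.eq_zero_iff_mem]
    exact hanti n hs
  · intro n s
    exact ⟨MvPowerSeries.truncTotal (n + 1) s, by rw [h1, h2], h3 n s⟩

lemma pow_le_of_gen {F : Type} [CommRing F] (M N : Ideal F) {m : ℕ} (y : Fin m → F)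
    (hgen : M ≤ Ideal.span (Set.range y) ⊔ N) (j : ℕ) :
    M ^ j ≤ Ideal.span (Set.range y) ^ j ⊔ N := by
  induction j with
  | zero => rw [pow_zero, pow_zero]; exact le_sup_left
  | succ j ih =>
    rw [pow_succ, pow_succ]
    calc M ^ j * M ≤ (Ideal.span (Set.range y) ^ j ⊔ N) * (Ideal.span (Set.range y) ⊔ N) :=
          Ideal.mul_mono ih hgen
      _ ≤ _ := by
        rw [Ideal.sup_mul, Ideal.mul_sup]
        refine sup_le (sup_le le_sup_left ?_) ?_
        · exact le_trans Ideal.mul_le_right le_sup_right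
        · exact le_trans Ideal.mul_le_left le_sup_right

lemma span_range_eq_map {𝒪 F : Type} [CommRing 𝒪] [CommRing F] [Algebra 𝒪 F] {m : ℕ}
    (y : Fin m → F) : Ideal.span (Set.range y) =
      (MvPolynomial.idealOfVars (Fin m) 𝒪).map
        (MvPolynomial.aeval y : MvPolynomial (Fin m) 𝒪 →ₐ[𝒪] F) := by
  rw [MvPolynomial.idealOfVars, Ideal.map_span, ← Set.range_comp]
  congr 2
  ext i; simp

lemma poly_dense {𝒪 F : Type} [CommRing 𝒪] [CommRing F] [Algebra 𝒪 F]
    (M N : Ideal F) (hsurj : ∀ x : F, ∃ o : 𝒪, x - algebraMap 𝒪 F o ∈ M)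
    {m : ℕ} (y : Fin m → F) (hy : ∀ i, y i ∈ M) (hgen : M ≤ Ideal.span (Set.range y) ⊔ N)
    (j : ℕ) (x : F) : ∃ p : MvPolynomial (Fin m) 𝒪, x - MvPolynomial.aeval y p ∈ M ^ j ⊔ N := by
  induction j generalizing x with
  | zero => exact ⟨0, by rw [pow_zero, Ideal.one_eq_top]; exact Ideal.mem_sup_left trivial⟩
  | succ j ih =>
    have hrange := span_range_eq_map (𝒪 := 𝒪) y
    have key : ∀ x ∈ Ideal.span (Set.range y) ^ j ⊔ N, ∃ p : MvPolynomial (Fin m) 𝒪,
        x - MvPolynomial.aeval y p ∈ M ^ (j + 1) ⊔ N := by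
      intro x hx
      obtain ⟨a, ha, b, hb, rfl⟩ := Submodule.mem_sup.mp hx
      have : ∃ p : MvPolynomial (Fin m) 𝒪, a - MvPolynomial.aeval y p ∈ M ^ (j + 1) ⊔ N := by
        rw [hrange, ← Ideal.map_pow] at ha
        refine Submodule.span_induction
          (p := fun a _ => ∃ p : MvPolynomial (Fin m) 𝒪, a - MvPolynomial.aeval y p ∈
            M ^ (j + 1) ⊔ N) ?_ ?_ ?_ ?_ ha
        · rintro _ ⟨p, _, rfl⟩
          exact ⟨p, by simp⟩
        · exact ⟨0, by simp⟩
        · rintro a b _ _ ⟨p, hp⟩ ⟨q, hq⟩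
          refine ⟨p + q, ?_⟩
          rw [map_add]
          have e : a + b - (MvPolynomial.aeval y p + MvPolynomial.aeval y q) =
            (a - MvPolynomial.aeval y p) + (b - MvPolynomial.aeval y q) := by ring
          rw [e]; exact Ideal.add_mem _ hp hq
        · rintro c a ha' ⟨p, hp⟩
          have haM : a ∈ M ^ j := by
            have : (MvPolynomial.idealOfVars (Fin m) 𝒪 ^ j).map
              (MvPolynomial.aeval y : MvPolynomial (Fin m) 𝒪 →ₐ[𝒪] F) ≤ M ^ j := by
              rw [Ideal.map_pow, ← hrange]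
              refine Ideal.pow_right_mono ?_ j
              rw [Ideal.span_le]; rintro _ ⟨i, rfl⟩; exact hy i
            exact this ha'
          obtain ⟨o, ho⟩ := hsurj c
          refine ⟨MvPolynomial.C o * p, ?_⟩
          have e : c • a - MvPolynomial.aeval y (MvPolynomial.C o * p) =
            (c - algebraMap 𝒪 F o) * a + algebraMap 𝒪 F o * (a - MvPolynomial.aeval y p) := by
            rw [map_mul, MvPolynomial.aeval_C, smul_eq_mul]; ring
          rw [e]
          refine Ideal.add_mem _ (Ideal.mem_sup_left ?_) (Ideal.mul_mem_left _ _ hp)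
          rw [pow_succ, mul_comm]
          exact Ideal.mul_mem_mul ho haM
      obtain ⟨p, hp⟩ := this
      refine ⟨p, ?_⟩
      have e : a + b - MvPolynomial.aeval y p = (a - MvPolynomial.aeval y p) + b := by ring
      rw [e]; exact Ideal.add_mem _ hp (Ideal.mem_sup_right hb)
    obtain ⟨p, hp⟩ := ih x
    obtain ⟨q, hq⟩ := key _ (sup_le (pow_le_of_gen M N y hgen j) le_sup_right hp)
    refine ⟨p + q, ?_⟩
    rw [map_add, ← sub_sub]; exact hq

/-- Main construction: a limit of quotients of `F` which is complete, local, noetherian. -/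
theorem exists_limit_ring
    {𝒪 F : Type} [CommRing 𝒪] [IsNoetherianRing 𝒪] [CommRing F] [Algebra 𝒪 F]
    (M : Ideal F) [M.IsMaximal]
    (hsurj : ∀ x : F, ∃ o : 𝒪, x - algebraMap 𝒪 F o ∈ M)
    (J : ℕ → Ideal F) (hJ1 : J 1 = M) (hMJ : ∀ n, M ^ n ≤ J n)
    (hanti : ∀ n, J (n+1) ≤ J n) (hstep : ∀ n, J n ≤ J (n+1) ⊔ M ^ n)
    {m : ℕ} (y : Fin m → F) (hy : ∀ i, y i ∈ M) (hgen : ∀ n, M ≤ Ideal.span (Set.range y) ⊔ J n) :
    ∃ (R : Type) (_ : CommRing R) (_ : IsLocalRing R) (_ : IsNoetherianRing R)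
      (_ : IsAdicComplete (maximalIdeal R) R) (_ : Algebra 𝒪 R) (f : F →ₐ[𝒪] R),
      (∀ n x, f x ∈ maximalIdeal R ^ n ↔ x ∈ J n) ∧
      (∀ n z, ∃ x, z - f x ∈ maximalIdeal R ^ n) := by
  obtain ⟨θ, hθ1, hθ2, hθ3⟩ := exists_theta (𝒪 := 𝒪) M J hMJ hanti y hy
  let I : Ideal (MvPowerSeries (Fin m) 𝒪) := .span (.range MvPowerSeries.X)
  have hJ0 : J 0 = ⊤ := by
    rw [eq_top_iff]; have := hMJ 0; rwa [pow_zero, Ideal.one_eq_top] at this
  -- generation of `F` modulo `J n`
  have hpow : ∀ n j, M ^ j ≤ Ideal.span (Set.range y) ^ j ⊔ J n := fun n j =>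
    pow_le_of_gen M (J n) y (hgen n) j
  have hpoly : ∀ n j, ∀ x : F, ∃ p : MvPolynomial (Fin m) 𝒪,
      x - MvPolynomial.aeval y p ∈ M ^ j ⊔ J n := fun n j x =>
    poly_dense M (J n) hsurj y hy (hgen n) j x
  have hθsurj' : ∀ n (x : F), ∃ p : MvPolynomial (Fin m) 𝒪,
      θ n (p : MvPowerSeries (Fin m) 𝒪) = Ideal.Quotient.mk (J n) x := by
    intro n x
    obtain ⟨p, hp⟩ := hpoly n n x
    refine ⟨p, ?_⟩
    rw [hθ1, eq_comm, Ideal.Quotient.mk_eq_mk_iff_sub_mem]
    exact (sup_le (hMJ n) le_rfl : M ^ n ⊔ J n ≤ J n) hp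
  -- the kernels
  let K : ℕ → Ideal (MvPowerSeries (Fin m) 𝒪) := fun n => RingHom.ker (θ n)
  have hKmem : ∀ n s, s ∈ K n ↔ θ n s = 0 := fun n s => RingHom.mem_ker
  have hIK : ∀ n, I ^ n ≤ K n := by
    intro n
    have h1 : I.map (θ n) ≤ M.map (Ideal.Quotient.mk (J n)) := by
      rw [Ideal.map_span, Ideal.span_le]
      rintro _ ⟨_, ⟨i, rfl⟩, rfl⟩
      have := hθ1 n (MvPolynomial.X i)
      rw [MvPolynomial.coe_X] at this
      rw [SetLike.mem_coe, this, MvPolynomial.aeval_X]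
      exact Ideal.mem_map_of_mem _ (hy i)
    have h2 : (I ^ n).map (θ n) ≤ ⊥ := by
      rw [Ideal.map_pow]
      refine le_trans (Ideal.pow_right_mono h1 n) ?_
      rw [← Ideal.map_pow, Ideal.map_le_iff_le_comap]
      intro x hx
      rw [Ideal.mem_comap, Ideal.mem_bot, Ideal.Quotient.eq_zero_iff_mem]
      exact hMJ n hx
    intro s hs
    rw [hKmem]
    exact (Ideal.mem_bot).mp (h2 (Ideal.mem_map_of_mem _ hs))
  have hKanti : ∀ n, K (n + 1) ≤ K n := fun n s hs => hθ2 n s hs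
  have hKstep : ∀ n, K n ≤ K (n + 1) ⊔ I ^ n := by
    intro n s hs
    obtain ⟨p, hp1, hp2⟩ := hθ3 n s
    rw [hKmem] at hs
    have h1 : MvPolynomial.aeval y p ∈ J n := by
      rw [hs, hθ1] at hp2
      exact Ideal.Quotient.eq_zero_iff_mem.mp hp2.symm
    obtain ⟨a, ha, b, hb, hab⟩ := Submodule.mem_sup.mp (hstep n h1)
    have h2 : b ∈ Ideal.span (Set.range y) ^ n ⊔ J (n + 1) := hpow (n + 1) n hb
    obtain ⟨c, hc, d, hd, hcd⟩ := Submodule.mem_sup.mp h2
    -- lift `c` to `I ^ n`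
    have h3 : ∀ c ∈ Ideal.span (Set.range y) ^ n, ∃ z ∈ I ^ n, θ (n + 1) z =
        Ideal.Quotient.mk (J (n + 1)) c := by
      intro c hc
      have hrange := span_range_eq_map (𝒪 := 𝒪) y
      rw [hrange, ← Ideal.map_pow] at hc
      refine Submodule.span_induction
        (p := fun c _ => ∃ z ∈ I ^ n, θ (n + 1) z = Ideal.Quotient.mk (J (n + 1)) c) ?_ ?_ ?_ ?_ hc
      · rintro _ ⟨p, hp, rfl⟩
        refine ⟨(p : MvPowerSeries (Fin m) 𝒪), ?_, hθ1 _ _⟩
        have h5 : (MvPolynomial.idealOfVars (Fin m) 𝒪 ^ n).map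
            (algebraMap (MvPolynomial (Fin m) 𝒪) (MvPowerSeries (Fin m) 𝒪)) ≤ I ^ n := by
          rw [Ideal.map_pow]
          refine Ideal.pow_right_mono ?_ n
          rw [MvPolynomial.idealOfVars, Ideal.map_span, Ideal.span_le]
          rintro _ ⟨_, ⟨i, rfl⟩, rfl⟩
          apply Ideal.subset_span
          exact ⟨i, (MvPolynomial.coe_X i).symm⟩
        exact h5 (Ideal.mem_map_of_mem _ hp)
      · exact ⟨0, Ideal.zero_mem _, by simp⟩
      · rintro a b _ _ ⟨z, hz, hz'⟩ ⟨w, hw, hw'⟩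
        exact ⟨z + w, Ideal.add_mem _ hz hw, by rw [map_add, hz', hw', map_add]⟩
      · rintro a b _ ⟨z, hz, hz'⟩
        obtain ⟨p, hp⟩ := hθsurj' (n + 1) a
        exact ⟨(p : MvPowerSeries (Fin m) 𝒪) * z, Ideal.mul_mem_left _ _ hz, by
          rw [map_mul, hz', hp, smul_eq_mul, map_mul]⟩
    obtain ⟨z, hz, hz'⟩ := h3 c hc
    have h4 : s - z ∈ K (n + 1) := by
      rw [hKmem, map_sub, hz', hp1, hθ1, ← map_sub, Ideal.Quotient.eq_zero_iff_mem]
      have : MvPolynomial.aeval y p - c = a + d := by rw [← hab, ← hcd]; ring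
      rw [this]
      exact Ideal.add_mem _ ha hd
    have e : s = (s - z) + z := by ring
    rw [e]
    exact Submodule.add_mem_sup h4 hz
  let Kinf : Ideal (MvPowerSeries (Fin m) 𝒪) := ⨅ n, K n
  have hKinfmem : ∀ s, s ∈ Kinf ↔ ∀ n, θ n s = 0 := by
    intro s
    simp only [Kinf, Ideal.mem_iInf, hKmem]
  have hK : ∀ n, Kinf ⊔ I ^ n = K n := by
    intro n
    refine le_antisymm (sup_le (iInf_le _ n) (hIK n)) ?_
    intro s hs
    obtain ⟨t, ht, ht'⟩ := exists_approx I K hIK hKanti hKstep (fun _ => 0)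
      (fun n => by rw [sub_self]; exact Ideal.zero_mem _) n s (by rw [sub_zero]; exact hs)
    have e : s = t + (-(t - s)) := by ring
    rw [e]
    refine Submodule.add_mem_sup ?_ ((Ideal.neg_mem_iff _).mpr ht')
    simp only [Kinf, Ideal.mem_iInf]
    intro n'
    simpa using ht n'
  have hlift : ∀ x : F, ∃ s, ∀ n, θ n s = Ideal.Quotient.mk (J n) x := by
    intro x
    choose p hp using fun n => hθsurj' n x
    obtain ⟨t, ht, _⟩ := exists_approx I K hIK hKanti hKstep (fun n => (p n : MvPowerSeries (Fin m) 𝒪))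
      (fun n => by
        rw [hKmem, map_sub, hp n, hθ1]
        have h1 := hp (n + 1)
        rw [hθ1, Ideal.Quotient.mk_eq_mk_iff_sub_mem] at h1
        rw [← map_sub, Ideal.Quotient.eq_zero_iff_mem]
        exact hanti n h1) 0 0 (by rw [hKmem]; rw [← hKmem]; have := hIK 0; rw [pow_zero, Ideal.one_eq_top, top_le_iff] at this; rw [this]; trivial)
    refine ⟨t, fun n => ?_⟩
    have h2 := ht n
    rw [hKmem, map_sub, sub_eq_zero] at h2
    rw [h2, hp]
  choose lf hlf using hlift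
  let R := MvPowerSeries (Fin m) 𝒪 ⧸ Kinf
  let q : MvPowerSeries (Fin m) 𝒪 →+* R := Ideal.Quotient.mk Kinf
  have hq : Function.Surjective q := Ideal.Quotient.mk_surjective
  have hqeq : ∀ s t, (∀ n, θ n s = θ n t) → q s = q t := by
    intro s t h
    rw [Ideal.Quotient.mk_eq_mk_iff_sub_mem, hKinfmem]
    intro n; rw [map_sub, h, sub_self]
  have hIR : ∀ n, (I.map q) ^ n = (K n).map q := by
    intro n
    rw [← hK, Ideal.map_sup, Ideal.map_pow]
    have : Kinf.map q = ⊥ := Ideal.map_quotient_self Kinf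
    rw [this, bot_sup_eq]
  have hmemK : ∀ n s, q s ∈ (I.map q) ^ n ↔ θ n s = 0 := by
    intro n s
    rw [hIR, ← hKmem, ← Ideal.mem_comap, Ideal.comap_map_of_surjective q hq]
    have : RingHom.ker q ≤ K n := by
      rw [Ideal.mk_ker]; exact iInf_le _ n
    rw [← RingHom.ker_eq_comap_bot, sup_eq_left.mpr this]
  have hcomp : IsAdicComplete (I.map q) R := by
    have h1 : IsAdicComplete I R := IsAdicComplete.of_module_finite I R
    exact (IsAdicComplete.map_algebraMap_iff (R := MvPowerSeries (Fin m) 𝒪) (S := R) (M := R)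
      (I := I)).mpr h1
  have hmax : (I.map q).IsMaximal := by
    have h1 : (K 1).IsMaximal := by
      have h2 : Function.Surjective (θ 1) := by
        intro x
        obtain ⟨x, rfl⟩ := Ideal.Quotient.mk_surjective x
        obtain ⟨p, hp⟩ := hθsurj' 1 x
        exact ⟨_, hp⟩
      have h3 : (⊥ : Ideal (F ⧸ J 1)).IsMaximal := by
        rw [hJ1]; exact Ideal.bot_quotient_isMaximal_iff M |>.mpr inferInstance
      exact Ideal.comap_isMaximal_of_surjective (θ 1) h2
    have h2 : I.map q = (K 1).map q := (pow_one (I.map q)).symm.trans (hIR 1)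
    rw [h2]
    exact Ideal.IsMaximal.map_of_surjective_of_ker_le hq (by
      rw [Ideal.mk_ker]; exact iInf_le _ 1)
  have hloc : IsLocalRing R := isLocalRing_of_isAdicComplete_maximal (I.map q)
  have hmaxeq : maximalIdeal R = I.map q := (IsLocalRing.eq_maximalIdeal hmax).symm
  let f : F →ₐ[𝒪] R :=
    { toFun := fun x => q (lf x)
      map_one' := by
        rw [← map_one q]; apply hqeq; intro n; rw [hlf, map_one, map_one]
      map_mul' := fun x z => by
        rw [← map_mul q]; apply hqeq; intro n; rw [hlf, map_mul, map_mul, hlf, hlf]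
      map_zero' := by
        rw [← map_zero q]; apply hqeq; intro n; rw [hlf, map_zero, map_zero]
      map_add' := fun x z => by
        rw [← map_add q]; apply hqeq; intro n; rw [hlf, map_add, map_add, hlf, hlf]
      commutes' := fun o => by
        show _ = q (algebraMap 𝒪 _ o)
        apply hqeq; intro n; rw [hlf]
        have := hθ1 n (MvPolynomial.C o)
        rw [MvPolynomial.aeval_C, MvPolynomial.coe_C] at this
        rw [← this]; rfl }
  have hf : ∀ x, f x = q (lf x) := fun x => rfl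
  refine ⟨R, inferInstance, hloc, inferInstance, by rw [hmaxeq]; exact hcomp, inferInstance, f, ?_, ?_⟩
  · intro n x
    rw [hmaxeq, hf, hmemK, hlf, Ideal.Quotient.eq_zero_iff_mem]
  · intro n z
    obtain ⟨s, rfl⟩ := hq z
    obtain ⟨x, hx⟩ := Ideal.Quotient.mk_surjective (θ n s)
    refine ⟨x, ?_⟩
    rw [hmaxeq, hf, ← map_sub, hmemK, map_sub, hlf, hx, sub_self]

end Fermat.Agent.DefRing
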