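import Mathlib
import Fermat.Agent.DefRing.Limit

/-!
# From a family of ideals with finite tangent space to a complete noetherian local ring
-/

set_option autoImplicit false

namespace Fermat.Agent.DefRing

open IsLocalRing

/-- Duality with the dual numbers. -/
theorem exists_tangent {𝒪 F : Type} [CommRing 𝒪] [IsLocalRing 𝒪] [CommRing F] [Algebra 𝒪 F]
    (π : F →+* ResidueField 𝒪) (hπ : ∀ o, π (algebraMap 𝒪 F o) = residue 𝒪 o)
    (I : Ideal F) (hI : I ≤ RingHom.ker π) (hI2 : RingHom.ker π ^ 2 ≤ I)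
    (hI𝒪 : ∀ o ∈ maximalIdeal 𝒪, algebraMap 𝒪 F o ∈ I) (x : F) (hx : π x = 0) (hxI : x ∉ I) :
    ∃ t : F →+* DualNumber (ResidueField 𝒪), (∀ y, (t y).fst = π y) ∧
      (∀ o, t (algebraMap 𝒪 F o) = TrivSqZeroExt.inl (residue 𝒪 o)) ∧
      (∀ y ∈ I, t y = 0) ∧ t x ≠ 0 := by
  let j : ResidueField 𝒪 →+* F ⧸ I := Ideal.Quotient.lift (maximalIdeal 𝒪)
    ((Ideal.Quotient.mk I).comp (algebraMap 𝒪 F)) (fun o ho => by
      rw [RingHom.comp_apply, Ideal.Quotient.eq_zero_iff_mem]; exact hI𝒪 o ho)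
  have hj : ∀ o, j (residue 𝒪 o) = Ideal.Quotient.mk I (algebraMap 𝒪 F o) := fun o => rfl
  let := j.toAlgebra
  have hsm : ∀ (c : ResidueField 𝒪) (z : F ⧸ I), c • z = j c * z := fun c z => rfl
  let πI : F ⧸ I →+* ResidueField 𝒪 := Ideal.Quotient.lift I π (fun y hy => hI hy)
  have hπI : ∀ y, πI (Ideal.Quotient.mk I y) = π y := fun y => rfl
  have hπj : ∀ c, πI (j c) = c := by
    intro c
    obtain ⟨o, rfl⟩ := residue_surjective c
    rw [hj, hπI, hπ]
  have hx1 : Ideal.Quotient.mk I x ∉ Submodule.span (ResidueField 𝒪) {(1 : F ⧸ I)} := by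
    intro h
    obtain ⟨c, hc⟩ := Submodule.mem_span_singleton.mp h
    rw [hsm, mul_one] at hc
    have h1 : c = 0 := by rw [← hπj c, hc, hπI, hx]
    rw [h1, map_zero] at hc
    exact hxI (Ideal.Quotient.eq_zero_iff_mem.mp hc.symm)
  obtain ⟨l, hlx, hl1⟩ := Submodule.exists_le_ker_of_notMem hx1
  have hl1 : l 1 = 0 := LinearMap.mem_ker.mp (hl1 (Submodule.mem_span_singleton_self _))
  have hlj : ∀ c, l (j c) = 0 := by
    intro c
    have : j c = c • (1 : F ⧸ I) := by rw [hsm, mul_one]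
    rw [this, map_smul, hl1, smul_zero]
  -- derivation property
  have hker : ∀ y z : F, π y = 0 → π z = 0 → Ideal.Quotient.mk I (y * z) = 0 := by
    intro y z hy hz
    rw [Ideal.Quotient.eq_zero_iff_mem]
    apply hI2
    rw [pow_two]
    exact Ideal.mul_mem_mul hy hz
  have hder : ∀ y z : F, l (Ideal.Quotient.mk I (y * z)) =
      π y * l (Ideal.Quotient.mk I z) + π z * l (Ideal.Quotient.mk I y) := by
    intro y z
    obtain ⟨a, ha⟩ := residue_surjective (π y)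
    obtain ⟨b, hb⟩ := residue_surjective (π z)
    have h1 := hker (y - algebraMap 𝒪 F a) (z - algebraMap 𝒪 F b)
      (by rw [map_sub, hπ, ha, sub_self]) (by rw [map_sub, hπ, hb, sub_self])
    have h2 : Ideal.Quotient.mk I (y * z) = (π y) • Ideal.Quotient.mk I z +
      (π z) • Ideal.Quotient.mk I y - j (π y * π z) := by
      rw [hsm, hsm, ← ha, ← hb, hj, hj, ← map_mul, ← map_mul, ← map_mul, hj, ← map_add, ← map_sub,
        ← sub_eq_zero, ← map_sub]
      rw [← h1]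
      congr 1
      rw [map_mul]; ring
    rw [h2, map_sub, map_add, map_smul, map_smul, hlj, sub_zero, smul_eq_mul, smul_eq_mul]
  let t : F →+* DualNumber (ResidueField 𝒪) :=
    { toFun := fun y => (π y, l (Ideal.Quotient.mk I y))
      map_one' := by
        apply TrivSqZeroExt.ext
        · exact map_one π
        · show l (Ideal.Quotient.mk I 1) = 0
          rw [map_one, hl1]
      map_mul' := fun y z => by
        apply TrivSqZeroExt.ext
        · show π (y * z) = π y * π z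
          exact map_mul π y z
        · show l (Ideal.Quotient.mk I (y * z)) = _
          rw [hder, TrivSqZeroExt.snd_mul]
          show _ = π y * l (Ideal.Quotient.mk I z) + l (Ideal.Quotient.mk I y) * π z
          ring
      map_zero' := by
        apply TrivSqZeroExt.ext
        · exact map_zero π
        · show l (Ideal.Quotient.mk I 0) = 0
          rw [map_zero, map_zero]
      map_add' := fun y z => by
        apply TrivSqZeroExt.ext
        · exact map_add π y z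
        · show l (Ideal.Quotient.mk I (y + z)) = l (Ideal.Quotient.mk I y) + l (Ideal.Quotient.mk I z)
          rw [map_add, map_add] }
  have ht1 : ∀ y, (t y).fst = π y := fun y => rfl
  have ht2 : ∀ y, (t y).snd = l (Ideal.Quotient.mk I y) := fun y => rfl
  refine ⟨t, ht1, fun o => ?_, fun y hy => ?_, fun h => ?_⟩
  · apply TrivSqZeroExt.ext
    · rw [ht1, hπ]; rfl
    · rw [ht2, ← hj, hlj]; rfl
  · apply TrivSqZeroExt.ext
    · rw [ht1]; exact hI hy
    · rw [ht2, Ideal.Quotient.eq_zero_iff_mem.mpr hy, map_zero]; rfl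
  · apply hlx
    rw [← ht2, h]; rfl

/-- The ring attached to a family of ideals closed under finite intersection, with a finite
tangent space. -/
theorem exists_ring_of_family
    {𝒪 F : Type} [CommRing 𝒪] [IsNoetherianRing 𝒪] [IsLocalRing 𝒪] [Finite (ResidueField 𝒪)]
    [CommRing F] [Algebra 𝒪 F]
    (π : F →+* ResidueField 𝒪) (hπ : ∀ o, π (algebraMap 𝒪 F o) = residue 𝒪 o)
    (𝓘 : Set (Ideal F)) (hM : RingHom.ker π ∈ 𝓘) (hle : ∀ I ∈ 𝓘, I ≤ RingHom.ker π)
    (hup : ∀ I ∈ 𝓘, ∀ J, I ≤ J → J ≤ RingHom.ker π → J ∈ 𝓘)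
    (hinf : ∀ I ∈ 𝓘, ∀ J ∈ 𝓘, I ⊓ J ∈ 𝓘)
    (hnil : ∀ I ∈ 𝓘, ∃ n, RingHom.ker π ^ n ≤ I) (hfinI : ∀ I ∈ 𝓘, Finite (F ⧸ I))
    (hT : {t : F →+* DualNumber (ResidueField 𝒪) |
      (∀ o, t (algebraMap 𝒪 F o) = TrivSqZeroExt.inl (residue 𝒪 o)) ∧ RingHom.ker t ∈ 𝓘}.Finite) :
    ∃ (R : Type) (_ : CommRing R) (_ : IsLocalRing R) (_ : IsNoetherianRing R)
      (_ : IsAdicComplete (maximalIdeal R) R) (_ : Algebra 𝒪 R) (f : F →ₐ[𝒪] R) (J : ℕ → Ideal F),
      (∀ n, n ≠ 0 → J n ∈ 𝓘) ∧ (∀ n, n ≠ 0 → ∀ I ∈ 𝓘, RingHom.ker π ^ n ≤ I → J n ≤ I) ∧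
      (∀ n, RingHom.ker π ^ n ≤ J n) ∧
      (∀ n x, f x ∈ maximalIdeal R ^ n ↔ x ∈ J n) ∧
      (∀ n z, ∃ x, z - f x ∈ maximalIdeal R ^ n) := by
  classical
  set M := RingHom.ker π with hMdef
  have hπsurj : Function.Surjective π := by
    intro c
    obtain ⟨o, rfl⟩ := residue_surjective c
    exact ⟨_, hπ o⟩
  have hMmax : M.IsMaximal := RingHom.ker_isMaximal_of_surjective π hπsurj
  have hsurj : ∀ x : F, ∃ o : 𝒪, x - algebraMap 𝒪 F o ∈ M := by
    intro x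
    obtain ⟨o, ho⟩ := residue_surjective (π x)
    refine ⟨o, ?_⟩
    rw [hMdef, RingHom.mem_ker, map_sub, hπ, ho, sub_self]
  have hloc : ∀ o ∈ maximalIdeal 𝒪, algebraMap 𝒪 F o ∈ M := by
    intro o ho
    rw [hMdef, RingHom.mem_ker, hπ, residue_eq_zero_iff]; exact ho
  -- the base ideal `I₀`
  let I₀ : Ideal F := M ⊓ hT.toFinset.inf (fun t => RingHom.ker t)
  have hI₀ : I₀ ∈ 𝓘 := by
    have key : ∀ s : Finset (F →+* DualNumber (ResidueField 𝒪)), (∀ t ∈ s, RingHom.ker t ∈ 𝓘) →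
        M ⊓ s.inf (fun t => RingHom.ker t) ∈ 𝓘 := by
      intro s
      induction s using Finset.induction_on with
      | empty => intro _; rw [Finset.inf_empty, inf_top_eq]; exact hM
      | insert t s hts ih =>
        intro h
        rw [Finset.inf_insert]
        have e : M ⊓ (RingHom.ker t ⊓ s.inf fun t => RingHom.ker t) =
          RingHom.ker t ⊓ (M ⊓ s.inf fun t => RingHom.ker t) := by
          rw [← inf_assoc, ← inf_assoc, inf_comm M]
        rw [e]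
        exact hinf _ (h t (Finset.mem_insert_self t s)) _
          (ih fun t' ht' => h t' (Finset.mem_insert_of_mem ht'))
    exact key _ fun t ht => (hT.mem_toFinset.mp ht).2
  have hI₀T : ∀ t : F →+* DualNumber (ResidueField 𝒪),
      (∀ o, t (algebraMap 𝒪 F o) = TrivSqZeroExt.inl (residue 𝒪 o)) → RingHom.ker t ∈ 𝓘 →
      I₀ ≤ RingHom.ker t := by
    intro t ht1 ht2
    exact le_trans inf_le_right (Finset.inf_le (hT.mem_toFinset.mpr ⟨ht1, ht2⟩))
  have hI₀M : I₀ ≤ M := inf_le_left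
  -- the generators
  obtain ⟨g, hg⟩ := (isNoetherianRing_iff_ideal_fg 𝒪).mp inferInstance (maximalIdeal 𝒪)
  have hfin0 : Finite (F ⧸ I₀) := hfinI _ hI₀
  let Zs : Set F := {x | x ∈ M ∧ ∃ z : F ⧸ I₀, x = Quotient.out z} ∪ (algebraMap 𝒪 F) '' (g : Set 𝒪)
  have hZfin : Zs.Finite := by
    refine Set.Finite.union ?_ (g.finite_toSet.image _)
    refine (Set.finite_range (fun z : F ⧸ I₀ => (Quotient.out z : F))).subset ?_
    rintro x ⟨_, z, rfl⟩
    exact ⟨z, rfl⟩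
  have hZM : ∀ x ∈ Zs, x ∈ M := by
    rintro x (⟨hx, _⟩ | ⟨o, ho, rfl⟩)
    · exact hx
    · apply hloc
      rw [← hg]; exact Ideal.subset_span ho
  obtain ⟨m, y, hy⟩ : ∃ (m : ℕ) (y : Fin m → F), Set.range y = Zs := by
    obtain ⟨m, ⟨e⟩⟩ := (finite_iff_exists_equiv_fin (α := Zs)).mp hZfin
    refine ⟨m, fun i => (e.symm i : F), ?_⟩
    ext x
    constructor
    · rintro ⟨i, rfl⟩; exact (e.symm i).2
    · intro hx; exact ⟨e ⟨x, hx⟩, by simp⟩
  have hyM : ∀ i, y i ∈ M := fun i => hZM _ (hy ▸ ⟨i, rfl⟩)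
  have hspanM : M ≤ Ideal.span (Set.range y) ⊔ I₀ := by
    intro x hx
    have h1 : x - Quotient.out (Ideal.Quotient.mk I₀ x) ∈ I₀ := by
      rw [← Ideal.Quotient.mk_eq_mk_iff_sub_mem]
      exact (Ideal.Quotient.mk_out _).symm
    have h2 : (Quotient.out (Ideal.Quotient.mk I₀ x) : F) ∈ M := by
      have := Ideal.sub_mem _ hx (hI₀M h1)
      simpa using this
    have e : x = Quotient.out (Ideal.Quotient.mk I₀ x) + (x - Quotient.out (Ideal.Quotient.mk I₀ x)) := by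
      ring
    rw [e]
    refine Submodule.add_mem_sup (Ideal.subset_span ?_) h1
    rw [hy]
    exact Or.inl ⟨h2, _, rfl⟩
  have hspan𝒪 : (maximalIdeal 𝒪).map (algebraMap 𝒪 F) ≤ Ideal.span (Set.range y) := by
    rw [← hg, Ideal.map_span, hy]
    exact Ideal.span_mono (fun x hx => Or.inr hx)
  -- uniform generation
  have hgen : ∀ I ∈ 𝓘, M ≤ Ideal.span (Set.range y) ⊔ I := by
    intro I hI
    let I' : Ideal F := I ⊔ (M ^ 2 ⊔ (maximalIdeal 𝒪).map (algebraMap 𝒪 F))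
    have hI'M : I' ≤ M := sup_le (hle I hI) (sup_le (Ideal.pow_le_self two_ne_zero) (by
      rw [Ideal.map_le_iff_le_comap]; exact hloc))
    have h1 : I₀ ≤ I' := by
      intro x hx
      by_contra hxI
      obtain ⟨t, ht1, ht2, ht3, ht4⟩ := exists_tangent π hπ I' hI'M
        (le_trans le_sup_left le_sup_right)
        (fun o ho => (le_trans le_sup_right le_sup_right : _ ≤ I') (Ideal.mem_map_of_mem _ ho))
        x (hI₀M hx) hxI
      have h2 : I' ≤ RingHom.ker t := fun z hz => ht3 z hz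
      have h3 : RingHom.ker t ≤ M := by
        intro z hz
        rw [RingHom.mem_ker] at hz
        rw [hMdef, RingHom.mem_ker, ← ht1, hz]; rfl
      have h4 : RingHom.ker t ∈ 𝓘 := hup I hI _ (le_trans le_sup_left h2) h3
      exact ht4 (hI₀T t ht2 h4 hx)
    set N := Ideal.span (Set.range y) ⊔ I with hN
    have h2 : M ≤ N ⊔ M ^ 2 := by
      refine le_trans hspanM (sup_le (le_trans le_sup_left le_sup_left) (le_trans h1 ?_))
      refine sup_le (le_trans le_sup_right le_sup_left) (sup_le le_sup_right ?_)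
      exact le_trans hspan𝒪 (le_trans le_sup_left le_sup_left)
    have h3 : ∀ j, M ≤ N ⊔ M ^ (j + 1) := by
      intro j
      induction j with
      | zero => rw [zero_add, pow_one]; exact le_sup_right
      | succ j ih =>
        refine le_trans ih (sup_le le_sup_left ?_)
        calc M ^ (j + 1) = M ^ j * M := pow_succ M j
          _ ≤ M ^ j * (N ⊔ M ^ 2) := Ideal.mul_mono_right h2
          _ ≤ N ⊔ M ^ (j + 1 + 1) := by
            rw [Ideal.mul_sup, ← pow_add]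
            exact sup_le_sup Ideal.mul_le_right le_rfl
    obtain ⟨n, hn⟩ := hnil I hI
    refine le_trans (h3 n) (sup_le le_rfl ?_)
    exact le_trans (le_trans (Ideal.pow_le_pow_right (Nat.le_succ n)) hn) le_sup_right
  -- bound on the cardinality
  let 𝔫 : Ideal (MvPolynomial (Fin m) 𝒪) :=
    RingHom.ker (π.comp (MvPolynomial.aeval y : MvPolynomial (Fin m) 𝒪 →ₐ[𝒪] F).toRingHom)
  have h𝔫fin : Finite (MvPolynomial (Fin m) 𝒪 ⧸ 𝔫) :=
    Finite.of_injective _ (RingHom.kerLift_injective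
      (π.comp (MvPolynomial.aeval y : MvPolynomial (Fin m) 𝒪 →ₐ[𝒪] F).toRingHom))
  have hcard : ∀ n, ∀ I ∈ 𝓘, M ^ n ≤ I →
      Nat.card (F ⧸ I) ≤ Nat.card (MvPolynomial (Fin m) 𝒪 ⧸ 𝔫 ^ n) := by
    intro n I hI hn
    have : Finite (MvPolynomial (Fin m) 𝒪 ⧸ 𝔫 ^ n) :=
      Ideal.finite_quotient_pow (IsNoetherian.noetherian 𝔫) n
    have h1 : 𝔫 ^ n ≤ I.comap (MvPolynomial.aeval y : MvPolynomial (Fin m) 𝒪 →ₐ[𝒪] F).toRingHom := by
      rw [← Ideal.map_le_iff_le_comap, Ideal.map_pow]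
      refine le_trans (Ideal.pow_right_mono ?_ n) hn
      rw [Ideal.map_le_iff_le_comap]
      intro p hp
      exact hp
    apply Nat.card_le_card_of_surjective (Ideal.quotientMap I
      (MvPolynomial.aeval y : MvPolynomial (Fin m) 𝒪 →ₐ[𝒪] F).toRingHom h1)
    intro x
    obtain ⟨x, rfl⟩ := Ideal.Quotient.mk_surjective x
    obtain ⟨p, hp⟩ := poly_dense M I hsurj y hyM (hgen I hI) n x
    refine ⟨Ideal.Quotient.mk _ p, ?_⟩
    rw [Ideal.quotientMap_mk, eq_comm, Ideal.Quotient.mk_eq_mk_iff_sub_mem]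
    exact (sup_le hn le_rfl : M ^ n ⊔ I ≤ I) hp
  -- the minimal ideals
  have hmin : ∀ n, n ≠ 0 → ∃ J ∈ 𝓘, M ^ n ≤ J ∧ ∀ I ∈ 𝓘, M ^ n ≤ I → J ≤ I := by
    intro n hn
    let s : Set ℕ := {c | ∃ I ∈ 𝓘, M ^ n ≤ I ∧ Nat.card (F ⧸ I) = c}
    have hs1 : s.Nonempty := ⟨_, M, hM, Ideal.pow_le_self hn, rfl⟩
    have hs2 : BddAbove s := ⟨Nat.card (MvPolynomial (Fin m) 𝒪 ⧸ 𝔫 ^ n), by
      rintro _ ⟨I, hI, hnI, rfl⟩
      exact hcard n I hI hnI⟩
    obtain ⟨J, hJ, hnJ, hcJ⟩ := Nat.sSup_mem hs1 hs2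
    refine ⟨J, hJ, hnJ, fun I hI hnI => ?_⟩
    have h1 : J ⊓ I ∈ 𝓘 := hinf J hJ I hI
    have h2 : Nat.card (F ⧸ (J ⊓ I)) ≤ Nat.card (F ⧸ J) := by
      rw [hcJ]
      exact le_csSup hs2 ⟨J ⊓ I, h1, le_inf hnJ hnI, rfl⟩
    have : Finite (F ⧸ (J ⊓ I)) := hfinI _ h1
    have h3 := Function.Surjective.bijective_of_nat_card_le
      (Ideal.Quotient.factor_surjective (inf_le_left : J ⊓ I ≤ J)) h2
    intro x hx
    have h4 : Ideal.Quotient.mk (J ⊓ I) x = Ideal.Quotient.mk (J ⊓ I) 0 := by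
      apply h3.1
      rw [Ideal.Quotient.factor_mk, Ideal.Quotient.factor_mk, map_zero,
        Ideal.Quotient.eq_zero_iff_mem]
      exact hx
    rw [Ideal.Quotient.mk_eq_mk_iff_sub_mem, sub_zero] at h4
    exact h4.2
  have hmin' : ∀ n, ∃ J : Ideal F, (n = 0 → J = ⊤) ∧
      (n ≠ 0 → J ∈ 𝓘 ∧ M ^ n ≤ J ∧ ∀ I ∈ 𝓘, M ^ n ≤ I → J ≤ I) := by
    intro n
    by_cases hn : n = 0
    · exact ⟨⊤, fun _ => rfl, fun h => absurd hn h⟩
    · obtain ⟨J, h1, h2, h3⟩ := hmin n hn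
      exact ⟨J, fun h => absurd h hn, fun _ => ⟨h1, h2, h3⟩⟩
  choose J hJ0 hJ using hmin'
  have hJ1 : J 1 = M := by
    obtain ⟨h1, h2, h3⟩ := hJ 1 one_ne_zero
    rw [pow_one] at h2
    exact le_antisymm (hle _ h1) h2
  have hMJ : ∀ n, M ^ n ≤ J n := by
    intro n
    by_cases hn : n = 0
    · rw [hJ0 n hn]; exact le_top
    · exact (hJ n hn).2.1
  have hanti : ∀ n, J (n + 1) ≤ J n := by
    intro n
    by_cases hn : n = 0
    · rw [hJ0 n hn]; exact le_top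
    · exact (hJ (n + 1) (Nat.succ_ne_zero n)).2.2 _ (hJ n hn).1
        (le_trans (Ideal.pow_le_pow_right (Nat.le_succ n)) (hJ n hn).2.1)
  have hstep : ∀ n, J n ≤ J (n + 1) ⊔ M ^ n := by
    intro n
    by_cases hn : n = 0
    · rw [hn, pow_zero, Ideal.one_eq_top, sup_top_eq]; exact le_top
    · refine (hJ n hn).2.2 _ (hup _ (hJ (n + 1) (Nat.succ_ne_zero n)).1 _ le_sup_left ?_) le_sup_right
      exact sup_le (hle _ (hJ (n + 1) (Nat.succ_ne_zero n)).1) (Ideal.pow_le_self hn)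
  have hgenJ : ∀ n, M ≤ Ideal.span (Set.range y) ⊔ J n := by
    intro n
    by_cases hn : n = 0
    · rw [hJ0 n hn, sup_top_eq]; exact le_top
    · exact hgen _ (hJ n hn).1
  obtain ⟨R, i1, i2, i3, i4, i5, f, hf1, hf2⟩ := exists_limit_ring (𝒪 := 𝒪) M hsurj J hJ1 hMJ hanti
    hstep y hyM hgenJ
  exact ⟨R, i1, i2, i3, i4, i5, f, J, fun n hn => (hJ n hn).1, fun n hn => (hJ n hn).2.2, hMJ, hf1, hf2⟩

end Fermat.Agent.DefRing
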