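import Mathlib
import Fermat.Agent.DefRing.Burnside

/-!
# A canonical slice for lifts of an absolutely irreducible two dimensional representation
-/

set_option autoImplicit false
set_option linter.unusedSectionVars false

namespace Fermat.Agent.DefRing

open IsLocalRing Module Matrix
open scoped TensorProduct

section slice

variable {𝒪 : Type} [CommRing 𝒪] [IsLocalRing 𝒪]

/-- auxiliary data cutting out a slice -/
structure SliceData (rbar : GQ →* M2 (ResidueField 𝒪)) where
  /-- element of the group ring mapping to `E₀₀` -/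
  α : GQ →₀ 𝒪
  /-- element of the group ring mapping to `E₁₀` -/
  β : GQ →₀ 𝒪
  hα : Finsupp.linearCombination 𝒪 rbar α = Matrix.single 0 0 1
  hβ : Finsupp.linearCombination 𝒪 rbar β = Matrix.single 1 0 1

theorem exists_sliceData (rbar : GQ →* M2 (ResidueField 𝒪))
    (h : Submodule.span (ResidueField 𝒪) (Set.range rbar) = ⊤) : Nonempty (SliceData rbar) := by
  have key : ∀ N : M2 (ResidueField 𝒪), ∃ c : GQ →₀ 𝒪, Finsupp.linearCombination 𝒪 rbar c = N := by
    intro N
    have h1 : N ∈ Submodule.span 𝒪 (Set.range rbar) := by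
      rw [← Submodule.restrictScalars_span 𝒪 (ResidueField 𝒪) (by
        rw [IsLocalRing.ResidueField.algebraMap_eq]
        exact residue_surjective)]
      rw [h]; trivial
    obtain ⟨c, hc⟩ := (Finsupp.mem_span_range_iff_exists_finsupp).mp h1
    exact ⟨c, hc⟩
  obtain ⟨α, hα⟩ := key (Matrix.single 0 0 1)
  obtain ⟨β, hβ⟩ := key (Matrix.single 1 0 1)
  exact ⟨⟨α, β, hα, hβ⟩⟩

variable (rbar : GQ →* M2 (ResidueField 𝒪))

/-- `r` is a lift of `rbar`. -/
def Red {A : Type} [CommRing A] [IsLocalRing A] [Algebra 𝒪 A] (r : GQ →* M2 A) : Prop :=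
  ∀ (σ : GQ) (i j : Fin 2) (o : 𝒪), residue 𝒪 o = rbar σ i j →
    r σ i j - algebraMap 𝒪 A o ∈ maximalIdeal A

variable {rbar}

/-- `r` is normalised with respect to the slice data. -/
structure Norm (sd : SliceData rbar) {A : Type} [CommRing A] [Algebra 𝒪 A]
    (r : GQ →* M2 A) : Prop where
  s1 : (Finsupp.linearCombination 𝒪 r sd.α) 1 0 = 0
  s2 : (Finsupp.linearCombination 𝒪 r sd.β) 0 0 = 0
  s3 : (Finsupp.linearCombination 𝒪 r sd.β) 1 0 = 1

section
variable {A : Type} [CommRing A] [Algebra 𝒪 A]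

omit [IsLocalRing 𝒪] in
lemma lc_apply (r : GQ → M2 A) (c : GQ →₀ 𝒪) (i j : Fin 2) :
    (Finsupp.linearCombination 𝒪 r c) i j = c.sum fun σ a => algebraMap 𝒪 A a * r σ i j := by
  rw [Finsupp.linearCombination_apply, Finsupp.sum, Matrix.sum_apply, Finsupp.sum]
  refine Finset.sum_congr rfl fun σ _ => ?_
  rw [Matrix.smul_apply, Algebra.smul_def]

lemma lc_map {B : Type} [CommRing B] [Algebra 𝒪 B] (φ : A →ₐ[𝒪] B) (r : GQ →* M2 A)
    (c : GQ →₀ 𝒪) (i j : Fin 2) :
    (Finsupp.linearCombination 𝒪 (mapRep (φ : A →+* B) r) c) i j =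
      φ ((Finsupp.linearCombination 𝒪 r c) i j) := by
  rw [lc_apply, lc_apply, Finsupp.sum, Finsupp.sum, map_sum]
  refine Finset.sum_congr rfl fun σ _ => ?_
  rw [mapRep_apply, map_mul, AlgHom.commutes]
  rfl

omit [IsLocalRing 𝒪] in
lemma lc_conj (r r' : GQ → M2 A) (X : M2 A) (h : ∀ σ, X * r σ = r' σ * X) (c : GQ →₀ 𝒪) :
    X * Finsupp.linearCombination 𝒪 r c = Finsupp.linearCombination 𝒪 r' c * X := by
  rw [Finsupp.linearCombination_apply, Finsupp.linearCombination_apply, Finsupp.sum, Finsupp.sum,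
    Finset.mul_sum, Finset.sum_mul]
  refine Finset.sum_congr rfl fun σ _ => ?_
  rw [Matrix.mul_smul, Matrix.smul_mul, h]

end

lemma Norm.map {sd : SliceData rbar} {A : Type} [CommRing A] [Algebra 𝒪 A] {B : Type} [CommRing B]
    [Algebra 𝒪 B] (φ : A →ₐ[𝒪] B) {r : GQ →* M2 A} (h : Norm sd r) :
    Norm sd (mapRep (φ : A →+* B) r) where
  s1 := by rw [lc_map, h.s1, map_zero]
  s2 := by rw [lc_map, h.s2, map_zero]
  s3 := by rw [lc_map, h.s3, map_one]

lemma Norm.of_injective {sd : SliceData rbar} {A : Type} [CommRing A] [Algebra 𝒪 A] {B : Type}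
    [CommRing B] [Algebra 𝒪 B] (φ : A →ₐ[𝒪] B) (hφ : Function.Injective φ) {r : GQ →* M2 A}
    (h : Norm sd (mapRep (φ : A →+* B) r)) : Norm sd r where
  s1 := hφ (by rw [← lc_map, h.s1, map_zero])
  s2 := hφ (by rw [← lc_map, h.s2, map_zero])
  s3 := hφ (by rw [← lc_map, h.s3, map_one])

variable {A : Type} [CommRing A] [IsLocalRing A] [Algebra 𝒪 A]

lemma lc_red [IsLocalHom (algebraMap 𝒪 A)] {r : GQ →* M2 A} (hr : Red rbar r) (c : GQ →₀ 𝒪)
    (i j : Fin 2) (o : 𝒪) (ho : residue 𝒪 o = (Finsupp.linearCombination 𝒪 rbar c) i j) :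
    (Finsupp.linearCombination 𝒪 r c) i j - algebraMap 𝒪 A o ∈ maximalIdeal A := by
  choose rhat hrhat using fun σ => residue_surjective (R := 𝒪) (rbar σ i j)
  have h1 : o - c.sum (fun σ a => a * rhat σ) ∈ maximalIdeal 𝒪 := by
    rw [← residue_eq_zero_iff, map_sub, ho, lc_apply, Finsupp.sum, Finsupp.sum, map_sum, sub_eq_zero]
    refine Finset.sum_congr rfl fun σ _ => ?_
    rw [map_mul, hrhat]; rfl
  have h2 : algebraMap 𝒪 A (o - c.sum (fun σ a => a * rhat σ)) ∈ maximalIdeal A :=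
    map_nonunit (algebraMap 𝒪 A) _ h1
  have h3 : (Finsupp.linearCombination 𝒪 r c) i j - algebraMap 𝒪 A (c.sum (fun σ a => a * rhat σ)) ∈
      maximalIdeal A := by
    rw [lc_apply, Finsupp.sum, Finsupp.sum, map_sum, ← Finset.sum_sub_distrib]
    refine Ideal.sum_mem _ fun σ _ => ?_
    rw [map_mul, ← mul_sub]
    exact Ideal.mul_mem_left _ _ (hr σ i j (rhat σ) (hrhat σ))
  have : (Finsupp.linearCombination 𝒪 r c) i j - algebraMap 𝒪 A o =
      ((Finsupp.linearCombination 𝒪 r c) i j - algebraMap 𝒪 A (c.sum (fun σ a => a * rhat σ))) -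
      algebraMap 𝒪 A (o - c.sum (fun σ a => a * rhat σ)) := by
    rw [map_sub]; ring
  rw [this]
  exact Ideal.sub_mem _ h3 h2

lemma lcα_mem [IsLocalHom (algebraMap 𝒪 A)] (sd : SliceData rbar) {r : GQ →* M2 A}
    (hr : Red rbar r) (i j : Fin 2) :
    (Finsupp.linearCombination 𝒪 r sd.α) i j - (Matrix.single 0 0 1 : M2 A) i j ∈ maximalIdeal A := by
  have := lc_red hr sd.α i j ((Matrix.single 0 0 1 : M2 𝒪) i j) (by
    rw [sd.hα]; fin_cases i <;> fin_cases j <;> simp)
  convert! this using 2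
  fin_cases i <;> fin_cases j <;> simp

lemma lcβ_mem [IsLocalHom (algebraMap 𝒪 A)] (sd : SliceData rbar) {r : GQ →* M2 A}
    (hr : Red rbar r) (i j : Fin 2) :
    (Finsupp.linearCombination 𝒪 r sd.β) i j - (Matrix.single 1 0 1 : M2 A) i j ∈ maximalIdeal A := by
  have := lc_red hr sd.β i j ((Matrix.single 1 0 1 : M2 𝒪) i j) (by
    rw [sd.hβ]; fin_cases i <;> fin_cases j <;> simp)
  convert! this using 2
  fin_cases i <;> fin_cases j <;> simp

/-- uniqueness of the normalised form. -/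
theorem slice_unique [IsLocalHom (algebraMap 𝒪 A)] (sd : SliceData rbar) {r r' : GQ →* M2 A}
    (hr : Red rbar r) (hr' : Red rbar r') (hn : Norm sd r) (hn' : Norm sd r')
    (X : M2 A) (hX : IsUnit X) (h : ∀ σ, X * r σ = r' σ * X) : r = r' := by
  set a := Finsupp.linearCombination 𝒪 r sd.α with ha
  set a' := Finsupp.linearCombination 𝒪 r' sd.α with ha'
  set b := Finsupp.linearCombination 𝒪 r sd.β with hb
  set b' := Finsupp.linearCombination 𝒪 r' sd.β with hb'
  have h1 : X * a = a' * X := lc_conj r r' X h _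
  have h2 : X * b = b' * X := lc_conj r r' X h _
  have a00 : a 0 0 - 1 ∈ maximalIdeal A := by simpa using lcα_mem sd hr 0 0
  have a11 : a' 1 1 ∈ maximalIdeal A := by simpa using lcα_mem sd hr' 1 1
  have hunit : IsUnit (a 0 0 - a' 1 1) := by
    have : (1 : A) - (1 - (a 0 0 - a' 1 1)) = a 0 0 - a' 1 1 := by ring
    rw [← this]
    apply IsLocalRing.isUnit_one_sub_self_of_mem_nonunits
    rw [← IsLocalRing.mem_maximalIdeal]
    have : 1 - (a 0 0 - a' 1 1) = -(a 0 0 - 1) + a' 1 1 := by ring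
    rw [this]
    exact Ideal.add_mem _ (Ideal.neg_mem_iff _ |>.mpr a00) a11
  have e10 := congrFun (congrFun h1 1) 0
  have f00 := congrFun (congrFun h2 0) 0
  have f10 := congrFun (congrFun h2 1) 0
  simp only [Matrix.mul_apply, Fin.sum_univ_two] at e10 f00 f10
  have n1 : a 1 0 = 0 := hn.s1
  have n2 : b 0 0 = 0 := hn.s2
  have n3 : b 1 0 = 1 := hn.s3
  have n1' : a' 1 0 = 0 := hn'.s1
  have n2' : b' 0 0 = 0 := hn'.s2
  have n3' : b' 1 0 = 1 := hn'.s3
  rw [n1, n1'] at e10
  rw [n2, n3, n2'] at f00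
  rw [n2, n3, n3'] at f10
  have X10 : X 1 0 = 0 := by
    have : (a 0 0 - a' 1 1) * X 1 0 = 0 := by linear_combination e10
    exact (hunit.mul_right_eq_zero).mp this
  rw [X10] at f00 f10
  have X01 : X 0 1 = 0 := by linear_combination f00
  have X11 : X 1 1 = X 0 0 := by linear_combination f10
  have hX0 : IsUnit (X 0 0) := by
    have := (Matrix.isUnit_iff_isUnit_det X).mp hX
    rw [Matrix.det_fin_two, X10, X01, X11] at this
    have h3 : X 0 0 * X 0 0 - 0 * 0 = X 0 0 * X 0 0 := by ring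
    rw [h3] at this
    exact isUnit_of_mul_isUnit_left this
  ext1 σ
  ext i j
  have h3 := congrFun (congrFun (h σ) i) j
  simp only [Matrix.mul_apply, Fin.sum_univ_two] at h3
  apply hX0.mul_left_cancel
  fin_cases i <;> fin_cases j <;> simp [X10, X01, X11] at h3 ⊢ <;> linear_combination h3

lemma one_add_mem_isUnit {P : M2 A} (hP : ∀ i j, P i j - (1 : M2 A) i j ∈ maximalIdeal A) :
    IsUnit P := by
  rw [Matrix.isUnit_iff_isUnit_det]
  have h2 : IsUnit ((P.map (residue A)).det) := by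
    have : P.map (residue A) = 1 := by
      ext i j
      have h3 := hP i j
      rw [← residue_eq_zero_iff, map_sub, sub_eq_zero] at h3
      rw [Matrix.map_apply, h3]
      simp only [Matrix.one_apply]
      split_ifs <;> simp
    rw [this, Matrix.det_one]; exact isUnit_one
  have h3 : (P.map (residue A)).det = residue A P.det := by
    have := (RingHom.map_det (residue A) P).symm
    exact this
  rw [h3] at h2
  exact isUnit_of_map_unit (residue A) _ h2

/-- conjugate of a representation -/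
noncomputable def conjRep (u : (M2 A)ˣ) (r : GQ →* M2 A) : GQ →* M2 A where
  toFun σ := u * r σ * (↑u⁻¹ : M2 A)
  map_one' := by rw [map_one, mul_one, Units.mul_inv]
  map_mul' σ τ := by
    rw [map_mul]
    simp only [mul_assoc]
    rw [Units.inv_mul_cancel_left]

omit [IsLocalRing A] in
lemma conjRep_apply (u : (M2 A)ˣ) (r : GQ →* M2 A) (σ : GQ) :
    conjRep u r σ = u * r σ * (↑u⁻¹ : M2 A) := rfl

omit [IsLocalRing A] in
lemma conjRep_conj (u : (M2 A)ˣ) (r : GQ →* M2 A) (σ : GQ) :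
    (u : M2 A) * r σ = conjRep u r σ * u := by
  rw [conjRep_apply, mul_assoc, Units.inv_mul, mul_one]

lemma conjRep_cont (u : (M2 A)ˣ) (r : GQ →* M2 A) (hc : MatCont A r) : MatCont A (conjRep u r) := by
  intro n
  obtain ⟨L, hL, h⟩ := hc n
  refine ⟨L, hL, fun σ hσ i j => ?_⟩
  have h1 : conjRep u r σ - 1 = u * (r σ - 1) * (↑u⁻¹ : M2 A) := by
    rw [conjRep_apply, mul_sub, sub_mul, mul_one, Units.mul_inv]
  rw [h1, Matrix.mul_apply]
  refine Ideal.sum_mem _ fun l _ => Ideal.mul_mem_right _ _ ?_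
  rw [Matrix.mul_apply]
  exact Ideal.sum_mem _ fun l' _ => Ideal.mul_mem_left _ _ (h σ hσ l' l)

lemma ofMat_conjRep (u : (M2 A)ˣ) (r : GQ →* M2 A) (hc : MatCont A r) :
    (ofMat r hc).IsEquiv (ofMat (conjRep u r) (conjRep_cont u r hc)) := by
  rw [ofMat_isEquiv_iff]
  exact ⟨u, u.isUnit, conjRep_conj u r⟩

/-- existence of the normalised form. -/
theorem slice_exists [IsLocalHom (algebraMap 𝒪 A)] [IsAdicComplete (maximalIdeal A) A]
    (sd : SliceData rbar) {r : GQ →* M2 A} (hr : Red rbar r) :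
    ∃ u : (M2 A)ˣ, Red rbar (conjRep u r) ∧ Norm sd (conjRep u r) := by
  set a := Finsupp.linearCombination 𝒪 r sd.α with ha
  set b := Finsupp.linearCombination 𝒪 r sd.β with hb
  have a00 : a 0 0 - 1 ∈ maximalIdeal A := by simpa using lcα_mem sd hr 0 0
  have a01 : a 0 1 ∈ maximalIdeal A := by simpa using lcα_mem sd hr 0 1
  have a10 : a 1 0 ∈ maximalIdeal A := by simpa using lcα_mem sd hr 1 0
  have a11 : a 1 1 ∈ maximalIdeal A := by simpa using lcα_mem sd hr 1 1
  have b00 : b 0 0 ∈ maximalIdeal A := by simpa using lcβ_mem sd hr 0 0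
  have b01 : b 0 1 ∈ maximalIdeal A := by simpa using lcβ_mem sd hr 0 1
  have b10 : b 1 0 - 1 ∈ maximalIdeal A := by simpa using lcβ_mem sd hr 1 0
  have b11 : b 1 1 ∈ maximalIdeal A := by simpa using lcβ_mem sd hr 1 1
  -- the small eigenvalue
  obtain ⟨μ, hμ, hμm⟩ : ∃ μ : A, μ ^ 2 - (a 0 0 + a 1 1) * μ + (a 0 0 * a 1 1 - a 0 1 * a 1 0) = 0 ∧
      μ ∈ maximalIdeal A := by
    have hH : HenselianRing A (maximalIdeal A) := IsAdicComplete.henselianRing A (maximalIdeal A)
    obtain ⟨μ, h1, h2⟩ := hH.is_henselian (Polynomial.X ^ 2 -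
      Polynomial.C (a 0 0 + a 1 1) * Polynomial.X +
      Polynomial.C (a 0 0 * a 1 1 - a 0 1 * a 1 0)) (by monicity!) 0 (by
        simp only [Polynomial.eval_add, Polynomial.eval_sub,
          Polynomial.eval_pow, Polynomial.eval_X, Polynomial.eval_mul, Polynomial.eval_C]
        have : (0:A) ^ 2 - (a 0 0 + a 1 1) * 0 + (a 0 0 * a 1 1 - a 0 1 * a 1 0) =
          a 0 0 * a 1 1 - a 0 1 * a 1 0 := by ring
        rw [this]
        exact Ideal.sub_mem _ (Ideal.mul_mem_left _ _ a11) (Ideal.mul_mem_left _ _ a10)) (by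
        have h0 : IsUnit (-(a 0 0 + a 1 1)) := by
          rw [IsUnit.neg_iff]
          have : a 0 0 + a 1 1 = 1 - (-(a 0 0 - 1) - a 1 1) := by ring
          rw [this]
          apply IsLocalRing.isUnit_one_sub_self_of_mem_nonunits
          rw [← IsLocalRing.mem_maximalIdeal]
          exact Ideal.sub_mem _ (Ideal.neg_mem_iff _ |>.mpr a00) a11
        simpa using h0.map (Ideal.Quotient.mk (maximalIdeal A)))
    refine ⟨μ, ?_, by simpa using h2⟩
    simpa only [Polynomial.IsRoot.def, Polynomial.eval_add, Polynomial.eval_sub,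
          Polynomial.eval_pow, Polynomial.eval_X, Polynomial.eval_mul, Polynomial.eval_C] using h1
  -- the new basis
  let P : M2 A := !![a 0 0 - μ, b 0 0 * (a 0 0 - μ) + b 0 1 * a 1 0;
    a 1 0, b 1 0 * (a 0 0 - μ) + b 1 1 * a 1 0]
  have hP1 : ∀ i j, P i j - (1 : M2 A) i j ∈ maximalIdeal A := by
    intro i j
    fin_cases i <;> fin_cases j
    · have : a 0 0 - μ - 1 = (a 0 0 - 1) - μ := by ring
      simp only [P, Fin.zero_eta, Matrix.one_apply_eq, Matrix.of_apply, Matrix.cons_val_zero]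
      rw [this]
      exact Ideal.sub_mem _ a00 hμm
    · simp only [P, Fin.zero_eta, Fin.mk_one, Matrix.of_apply, Matrix.cons_val_zero,
        Matrix.cons_val_one]
      rw [Matrix.one_apply_ne (by decide), sub_zero]
      exact Ideal.add_mem _ (Ideal.mul_mem_right _ _ b00) (Ideal.mul_mem_right _ _ b01)
    · simp only [P, Fin.zero_eta, Fin.mk_one, Matrix.of_apply, Matrix.cons_val_zero,
        Matrix.cons_val_one]
      rw [Matrix.one_apply_ne (by decide), sub_zero]
      exact a10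
    · show b 1 0 * (a 0 0 - μ) + b 1 1 * a 1 0 - (1 : M2 A) 1 1 ∈ maximalIdeal A
      rw [Matrix.one_apply_eq]
      have : b 1 0 * (a 0 0 - μ) + b 1 1 * a 1 0 - 1 =
        (b 1 0 - 1) * (a 0 0 - μ) + ((a 0 0 - 1) - μ) + b 1 1 * a 1 0 := by ring
      rw [this]
      exact Ideal.add_mem _ (Ideal.add_mem _ (Ideal.mul_mem_right _ _ b10)
        (Ideal.sub_mem _ a00 hμm)) (Ideal.mul_mem_right _ _ b11)
  obtain ⟨v, hv⟩ := one_add_mem_isUnit hP1
  have hPv : ∀ i j, (v : M2 A) i j = P i j := fun i j => by rw [hv]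
  -- residue of the inverse
  have hvinv : ∀ i j, (↑v⁻¹ : M2 A) i j - (1 : M2 A) i j ∈ maximalIdeal A := by
    intro i j
    have : (↑v⁻¹ : M2 A) - 1 = (↑v⁻¹ : M2 A) * (1 - v) := by
      rw [mul_sub, mul_one, Units.inv_mul]
    rw [← Matrix.sub_apply, this, Matrix.mul_apply]
    refine Ideal.sum_mem _ fun l _ => Ideal.mul_mem_left _ _ ?_
    rw [Matrix.sub_apply, ← neg_sub, Ideal.neg_mem_iff, hPv]
    exact hP1 l j
  refine ⟨v⁻¹, ?_, ?_⟩
  · intro σ i j o ho
    have h1 : residue A ((conjRep v⁻¹ r σ) i j) = residue A (r σ i j) := by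
      rw [conjRep_apply, inv_inv]
      have e1 : ((↑v⁻¹ * r σ * ↑v : M2 A).map (residue A)) = (r σ).map (residue A) := by
        rw [Matrix.map_mul, Matrix.map_mul]
        have e2 : (↑v⁻¹ : M2 A).map (residue A) = 1 := by
          ext i j
          have h3 := hvinv i j
          rw [← residue_eq_zero_iff, map_sub, sub_eq_zero] at h3
          rw [Matrix.map_apply, h3]
          simp only [Matrix.one_apply]
          split_ifs <;> simp
        have e3 : (v : M2 A).map (residue A) = 1 := by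
          ext i j
          have h3 := hP1 i j
          rw [← residue_eq_zero_iff, map_sub, sub_eq_zero] at h3
          rw [Matrix.map_apply, hPv, h3]
          simp only [Matrix.one_apply]
          split_ifs <;> simp
        rw [e2, e3, one_mul, mul_one]
      exact congrFun (congrFun e1 i) j
    have h2 := hr σ i j o ho
    rw [← residue_eq_zero_iff, map_sub, sub_eq_zero] at h2 ⊢
    rw [h1, h2]
  · have hconj : ∀ c : GQ →₀ 𝒪, (v : M2 A) * Finsupp.linearCombination 𝒪 (conjRep v⁻¹ r) c =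
        Finsupp.linearCombination 𝒪 r c * v := by
      intro c
      apply lc_conj
      intro σ
      rw [conjRep_apply, inv_inv, ← mul_assoc, ← mul_assoc, Units.mul_inv, one_mul]
    have hconj' : ∀ c : GQ →₀ 𝒪, Finsupp.linearCombination 𝒪 (conjRep v⁻¹ r) c =
        (↑v⁻¹ : M2 A) * (Finsupp.linearCombination 𝒪 r c * v) := by
      intro c
      rw [← hconj, ← mul_assoc, Units.inv_mul, one_mul]
    have hva : ∀ i, (a * v) i 0 = (v : M2 A) i 0 * (a 0 0 + a 1 1 - μ) := by
      intro i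
      rw [Matrix.mul_apply, Fin.sum_univ_two, hPv, hPv, hPv]
      fin_cases i
      · simp [P]; linear_combination -hμ
      · simp [P]; ring
    have hvb : ∀ i, (b * v) i 0 = (v : M2 A) i 1 := by
      intro i
      rw [Matrix.mul_apply, Fin.sum_univ_two, hPv, hPv, hPv]
      fin_cases i <;> simp [P]
    have hinv : ∀ i j, ∑ l, (↑v⁻¹ : M2 A) i l * (v : M2 A) l j = (1 : M2 A) i j := by
      intro i j
      rw [← Matrix.mul_apply, Units.inv_mul]
    have ha' : ∀ i, (Finsupp.linearCombination 𝒪 (conjRep v⁻¹ r) sd.α) i 0 =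
        (1 : M2 A) i 0 * (a 0 0 + a 1 1 - μ) := by
      intro i
      rw [hconj', Matrix.mul_apply]
      simp only [← ha, hva, ← mul_assoc]
      rw [← Finset.sum_mul, hinv]
    have hb' : ∀ i, (Finsupp.linearCombination 𝒪 (conjRep v⁻¹ r) sd.β) i 0 = (1 : M2 A) i 1 := by
      intro i
      rw [hconj', Matrix.mul_apply]
      simp only [← hb, hvb]
      rw [hinv]
    exact ⟨by rw [ha', Matrix.one_apply_ne (by decide), zero_mul],
      by rw [hb', Matrix.one_apply_ne (by decide)], by rw [hb', Matrix.one_apply_eq]⟩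

end slice

section residual

variable {𝒪 : Type} [CommRing 𝒪] [IsLocalRing 𝒪]
variable (ρbar : ResidualGaloisRep (ResidueField 𝒪)) (bbar : Basis (Fin 2) (ResidueField 𝒪) ρbar.V)
variable {A : Type} [CommRing A] [IsLocalRing A] [Algebra 𝒪 A]

/-- a representation with the right residual representation is given by a lift of `rbar`. -/
theorem exists_red (ψ : ResidueField 𝒪 →+* ResidueField A)
    (hψ : ∀ o, ψ (residue 𝒪 o) = residue A (algebraMap 𝒪 A o)) (ρ : GaloisRepAdic A)
    (h : ρ.residual.IsEquiv (ρbar.baseChangeAlong ψ)) :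
    ∃ (r : GQ →* M2 A) (hc : MatCont A r), Red (matOfRes ρbar bbar) r ∧
      ρ.IsEquiv (ofMat r hc) := by
  let := ψ.toAlgebra
  obtain ⟨b⟩ := exists_basis ρ
  obtain ⟨X, hX, h1⟩ := (residual_isEquiv_iff ρ b ρbar bbar).mp h
  choose Y hY using fun i => fun j => residue_surjective (R := A) (X i j)
  let Y' : M2 A := Matrix.of Y
  have hY' : Y'.map (residue A) = X := by ext i j; exact hY i j
  have hYu : IsUnit Y' := by
    rw [Matrix.isUnit_iff_isUnit_det] at hX ⊢
    rw [← hY'] at hX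
    have h3 : (Y'.map (residue A)).det = residue A Y'.det := (RingHom.map_det (residue A) Y').symm
    rw [h3] at hX
    exact isUnit_of_map_unit (residue A) _ hX
  obtain ⟨u, hu⟩ := hYu
  refine ⟨conjRep u (matOf ρ b), conjRep_cont u _ (matOf_cont ρ b), ?_,
    isEquiv_trans (isEquiv_ofMat ρ b) (ofMat_conjRep u _ _)⟩
  intro σ i j o ho
  rw [← residue_eq_zero_iff, map_sub, sub_eq_zero, ← hψ, ho]
  have h2 := h1 σ
  have h3 : X * mapRep (residue A) (matOf ρ b) σ =
      (mapRep (residue A) (conjRep u (matOf ρ b)) σ) * X := by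
    have := conjRep_conj u (matOf ρ b) σ
    have h4 := congrArg (fun N : M2 A => N.map (residue A)) this
    simp only [Matrix.map_mul] at h4
    rw [hu, hY'] at h4
    exact h4
  rw [h3] at h2
  have h5 := hX.mul_right_cancel h2
  exact congrFun (congrFun h5 i) j

/-- the residual representation of a lift of `rbar`. -/
theorem residual_of_red (ψ : ResidueField 𝒪 →+* ResidueField A)
    (hψ : ∀ o, ψ (residue 𝒪 o) = residue A (algebraMap 𝒪 A o)) (r : GQ →* M2 A) (hc : MatCont A r)
    (hr : Red (matOfRes ρbar bbar) r) :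
    (ofMat r hc).residual.IsEquiv (ρbar.baseChangeAlong ψ) := by
  let := ψ.toAlgebra
  refine (residual_isEquiv_iff (ofMat r hc) (Pi.basisFun A (Fin 2)) ρbar bbar).mpr ⟨1, isUnit_one, ?_⟩
  intro σ
  rw [one_mul, mul_one, matOf_ofMat]
  ext i j
  obtain ⟨o, ho⟩ := residue_surjective (R := 𝒪) (matOfRes ρbar bbar σ i j)
  have h1 := hr σ i j o ho
  rw [← residue_eq_zero_iff, map_sub, sub_eq_zero] at h1
  rw [mapRep_apply, mapRep_apply, h1, ← ho]
  exact (hψ o).symm

end residual

end Fermat.Agent.DefRing
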