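import Mathlib
import Fermat.Agent.DefRing.Slice
import Fermat.Prelude.Def_GaloisRep_DeformationCondition

/-!
# Normalised lifts of type `𝒟`, over artinian test algebras
-/

set_option autoImplicit false
set_option linter.unusedSectionVars false

namespace Fermat.Agent.DefRing

open IsLocalRing Module Matrix GaloisRep
open scoped TensorProduct

section localLemmas

variable {𝒪 : Type} [CommRing 𝒪] [IsLocalRing 𝒪]

/-- any `𝒪`-algebra map to a local ring with the same residue field is local. -/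
lemma isLocalHom_of_surjective_residue {A B : Type} [CommRing A] [IsLocalRing A] [Algebra 𝒪 A]
    [CommRing B] [IsLocalRing B] [Algebra 𝒪 B]
    (hB : Function.Surjective (residue B ∘ algebraMap 𝒪 B)) (φ : A →ₐ[𝒪] B) :
    IsLocalHom (φ : A →+* B) := by
  have h1 : Function.Surjective ((residue B).comp (φ : A →+* B)) := by
    intro x
    obtain ⟨o, ho⟩ := hB x
    refine ⟨algebraMap 𝒪 A o, ?_⟩
    rw [RingHom.comp_apply, ← ho]
    show residue B (φ (algebraMap 𝒪 A o)) = _
    rw [AlgHom.commutes]; rfl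
  have h2 : RingHom.ker ((residue B).comp (φ : A →+* B)) = maximalIdeal A :=
    IsLocalRing.eq_maximalIdeal (RingHom.ker_isMaximal_of_surjective _ h1)
  constructor
  intro a ha
  by_contra hna
  have h3 : a ∈ maximalIdeal A := (IsLocalRing.mem_maximalIdeal a).mpr hna
  rw [← h2, RingHom.mem_ker, RingHom.comp_apply, residue_eq_zero_iff] at h3
  exact (IsLocalRing.mem_maximalIdeal _).mp h3 ha

/-- the map on residue fields -/
lemma exists_psi {A : Type} [CommRing A] [IsLocalRing A] [Algebra 𝒪 A]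
    (hA : IsLocalHom (algebraMap 𝒪 A)) :
    ∃ ψ : ResidueField 𝒪 →+* ResidueField A,
      ∀ o, ψ (residue 𝒪 o) = residue A (algebraMap 𝒪 A o) :=
  ⟨ResidueField.map (algebraMap 𝒪 A), fun o => ResidueField.map_residue _ o⟩

lemma test_finite [Finite (ResidueField 𝒪)] {A : Type} [CommRing A] [IsLocalRing A] [Algebra 𝒪 A]
    (hA : IsArtinianTestAlgebra 𝒪 A) : Finite A := by
  have := hA.isArtinian
  have := hA.isLocalHom
  obtain ⟨ψ, hψ⟩ := exists_psi (𝒪 := 𝒪) (A := A) hA.isLocalHom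
  have hψs : Function.Surjective ψ := by
    intro x
    obtain ⟨o, ho⟩ := hA.residue_surjective x
    exact ⟨residue 𝒪 o, by rw [hψ]; exact ho⟩
  have h1 : Finite (A ⧸ maximalIdeal A) := Finite.of_surjective ψ hψs
  obtain ⟨n, hn⟩ := (isArtinianRing_iff_isNilpotent_maximalIdeal A).mp inferInstance
  have h2 : Finite (A ⧸ maximalIdeal A ^ n) :=
    Ideal.finite_quotient_pow (IsNoetherian.noetherian _) n
  rw [hn] at h2
  have h3 : Function.Injective (Ideal.Quotient.mk (0 : Ideal A)) := by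
    rw [injective_iff_map_eq_zero]
    intro a ha
    simpa using Ideal.Quotient.eq_zero_iff_mem.mp ha
  exact Finite.of_injective _ h3

lemma test_nilp {A : Type} [CommRing A] [IsLocalRing A] [Algebra 𝒪 A]
    (hA : IsArtinianTestAlgebra 𝒪 A) : ∃ n, n ≠ 0 ∧ maximalIdeal A ^ n = ⊥ := by
  have := hA.isArtinian
  obtain ⟨n, hn⟩ := (isArtinianRing_iff_isNilpotent_maximalIdeal A).mp this
  refine ⟨n + 1, Nat.succ_ne_zero n, ?_⟩
  rw [pow_succ, hn, zero_mul, Ideal.zero_eq_bot]

/-- a finite algebra with the right residue map is a test algebra. -/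
lemma test_of_ringHom {A : Type} [CommRing A] [Algebra 𝒪 A] [Finite A]
    (p : A →+* ResidueField 𝒪) (hp : ∀ o, p (algebraMap 𝒪 A o) = residue 𝒪 o)
    (hnil : ∀ a, p a = 0 → IsNilpotent a) :
    ∃ _ : IsLocalRing A, IsArtinianTestAlgebra 𝒪 A := by
  have hnt : Nontrivial A := p.domain_nontrivial
  have hunit : ∀ a, p a ≠ 0 → IsUnit a := by
    intro a ha
    obtain ⟨o, ho⟩ := residue_surjective (p a)
    have ho' : IsUnit o := by
      by_contra h
      have : o ∈ maximalIdeal 𝒪 := (IsLocalRing.mem_maximalIdeal o).mpr h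
      rw [← residue_eq_zero_iff, ho] at this
      exact ha this
    have h1 : IsNilpotent (a - algebraMap 𝒪 A o) := hnil _ (by rw [map_sub, hp, ho, sub_self])
    have h2 := h1.isUnit_add_left_of_commute (ho'.map (algebraMap 𝒪 A)) (Commute.all _ _)
    rwa [add_sub_cancel] at h2
  have hloc : IsLocalRing A := by
    refine IsLocalRing.of_isUnit_or_isUnit_one_sub_self fun a => ?_
    by_cases ha : p a = 0
    · right; exact (hnil a ha).isUnit_one_sub
    · left; exact hunit a ha
  have hmax : ∀ a, a ∈ maximalIdeal A ↔ p a = 0 := by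
    intro a
    rw [IsLocalRing.mem_maximalIdeal, mem_nonunits_iff]
    constructor
    · intro h; by_contra h'; exact h (hunit a h')
    · intro h h'
      exact (h'.map p).ne_zero h
  refine ⟨hloc, ⟨?_, ?_, inferInstance⟩⟩
  · constructor
    intro o ho
    have h1 := ho.map p
    rw [hp] at h1
    exact isUnit_of_map_unit (residue 𝒪) o h1
  · intro x
    obtain ⟨a, rfl⟩ := residue_surjective x
    obtain ⟨o, ho⟩ := residue_surjective (p a)
    refine ⟨o, ?_⟩
    show residue A (algebraMap 𝒪 A o) = residue A a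
    rw [← sub_eq_zero, ← map_sub, residue_eq_zero_iff, hmax, map_sub, hp, ho, sub_self]

/-- a quotient of a test algebra -/
lemma test_of_surjective {A B : Type} [CommRing A] [IsLocalRing A] [Algebra 𝒪 A]
    [CommRing B] [IsLocalRing B] [Algebra 𝒪 B] (hA : IsLocalHom (algebraMap 𝒪 A))
    (hA' : Function.Surjective (residue A ∘ algebraMap 𝒪 A)) (hB : IsArtinianRing B)
    (φ : A →ₐ[𝒪] B) (hφ : Function.Surjective φ) : IsArtinianTestAlgebra 𝒪 B := by
  have h1 : IsLocalHom (φ : A →+* B) := IsLocalHom.of_surjective (φ : A →+* B) hφ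
  refine ⟨?_, ?_, hB⟩
  · constructor
    intro o ho
    rw [← AlgHom.commutes φ] at ho
    exact hA.map_nonunit _ (h1.map_nonunit _ ho)
  · intro x
    obtain ⟨b, rfl⟩ := residue_surjective x
    obtain ⟨a, rfl⟩ := hφ b
    obtain ⟨o, ho⟩ := hA' (residue A a)
    refine ⟨o, ?_⟩
    show residue B (algebraMap 𝒪 B o) = residue B (φ a)
    have h2 : algebraMap 𝒪 A o - a ∈ maximalIdeal A := by
      rw [← residue_eq_zero_iff, map_sub, sub_eq_zero]; exact ho
    rw [← sub_eq_zero, ← map_sub, residue_eq_zero_iff, ← AlgHom.commutes φ, ← map_sub]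
    exact map_nonunit (φ : A →+* B) _ h2

end localLemmas

section cont

/-- over a test algebra, continuity means factoring through a finite level. -/
lemma matCont_of_finiteLevel {A : Type} [CommRing A] [IsLocalRing A] (r : GQ →* M2 A)
    (L : IntermediateField ℚ (AlgebraicClosure ℚ)) (hL : FiniteDimensional ℚ L)
    (h : ∀ σ : GQ, (∀ x ∈ L, σ x = x) → r σ = 1) : MatCont A r := by
  intro n
  refine ⟨L, hL, fun σ hσ i j => ?_⟩
  rw [h σ hσ, sub_self]
  exact Ideal.zero_mem _

lemma finiteLevel_of_matCont {A : Type} [CommRing A] [IsLocalRing A] (r : GQ →* M2 A)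
    (hA : ∃ n, n ≠ 0 ∧ maximalIdeal A ^ n = ⊥) (hc : MatCont A r) :
    ∃ L : IntermediateField ℚ (AlgebraicClosure ℚ), FiniteDimensional ℚ L ∧
      ∀ σ : GQ, (∀ x ∈ L, σ x = x) → r σ = 1 := by
  obtain ⟨n, _, hn⟩ := hA
  obtain ⟨L, hL, h⟩ := hc n
  refine ⟨L, hL, fun σ hσ => ?_⟩
  rw [← sub_eq_zero]
  ext i j
  have := h σ hσ i j
  rw [hn, Ideal.mem_bot] at this
  exact this

end cont

section good

variable {𝒪 : Type} [CommRing 𝒪] [IsLocalRing 𝒪]
variable {rbar : GQ →* M2 (ResidueField 𝒪)} (sd : SliceData rbar)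
  (𝒟 : ∀ ⦃A : Type⦄ [CommRing A] [IsLocalRing A] [Algebra 𝒪 A], GaloisRepAdic A → Prop)

/-- normalised lifts of type `𝒟`. -/
structure Good {A : Type} [CommRing A] [IsLocalRing A] [Algebra 𝒪 A] (r : GQ →* M2 A) : Prop where
  cont : MatCont A r
  red : Red rbar r
  norm : Norm sd r
  type : 𝒟 (ofMat r cont)

variable {sd} {𝒟}

lemma Red.map {A B : Type} [CommRing A] [IsLocalRing A] [Algebra 𝒪 A]
    [CommRing B] [IsLocalRing B] [Algebra 𝒪 B] (φ : A →ₐ[𝒪] B) (hφ : IsLocalHom (φ : A →+* B))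
    {r : GQ →* M2 A} (h : Red rbar r) : Red rbar (mapRep (φ : A →+* B) r) := by
  intro σ i j o ho
  have h1 := h σ i j o ho
  have h2 : mapRep (φ : A →+* B) r σ i j - algebraMap 𝒪 B o =
      (φ : A →+* B) (r σ i j - algebraMap 𝒪 A o) := by
    rw [map_sub, mapRep_apply]
    congr 1
    exact (AlgHom.commutes φ o).symm
  rw [h2]
  exact map_nonunit (φ : A →+* B) _ h1

lemma Good.map (h𝒟 : IsDeformationCondition 𝒪 𝒟) {A B : Type} [CommRing A] [IsLocalRing A]
    [Algebra 𝒪 A] [CommRing B] [IsLocalRing B] [Algebra 𝒪 B] (hA : IsArtinianTestAlgebra 𝒪 A)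
    (hB : IsArtinianTestAlgebra 𝒪 B) (φ : A →ₐ[𝒪] B)
    {r : GQ →* M2 A} (h : Good sd 𝒟 r) : Good sd 𝒟 (mapRep (φ : A →+* B) r) := by
  have hφ := isLocalHom_of_surjective_residue hB.residue_surjective φ
  refine ⟨mapRep_cont _ hφ r h.cont, h.red.map φ hφ, h.norm.map φ, ?_⟩
  exact h𝒟.of_isEquiv hB (ofMat_baseChange (φ : A →+* B) hφ r h.cont)
    (h𝒟.baseChangeAlong hA hB φ hφ h.type)

lemma Good.of_injective (h𝒟 : IsDeformationCondition 𝒪 𝒟) {A B : Type} [CommRing A] [IsLocalRing A]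
    [Algebra 𝒪 A] [CommRing B] [IsLocalRing B] [Algebra 𝒪 B] (hA : IsArtinianTestAlgebra 𝒪 A)
    (hB : IsArtinianTestAlgebra 𝒪 B) (φ : A →ₐ[𝒪] B) (hinj : Function.Injective φ)
    {r : GQ →* M2 A} (h : Good sd 𝒟 (mapRep (φ : A →+* B) r)) : Good sd 𝒟 r := by
  have hφ := isLocalHom_of_surjective_residue hB.residue_surjective φ
  obtain ⟨L, hL, hL'⟩ := finiteLevel_of_matCont _ (test_nilp hB) h.cont
  have hc : MatCont A r := matCont_of_finiteLevel r L hL (fun σ hσ => by
    ext i j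
    apply hinj
    have := congrFun (congrFun (hL' σ hσ) i) j
    rw [mapRep_apply] at this
    have h2 : φ ((1 : M2 A) i j) = (1 : M2 B) i j := by
      simp only [Matrix.one_apply]; split_ifs <;> simp
    rw [h2]; exact this)
  refine ⟨hc, ?_, h.norm.of_injective φ hinj, ?_⟩
  · intro σ i j o ho
    have h1 := h.red σ i j o ho
    by_contra hn
    rw [IsLocalRing.mem_maximalIdeal, mem_nonunits_iff, not_not] at hn
    have h2 : mapRep (φ : A →+* B) r σ i j - algebraMap 𝒪 B o =
        (φ : A →+* B) (r σ i j - algebraMap 𝒪 A o) := by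
      rw [map_sub, mapRep_apply]
      congr 1
      exact (AlgHom.commutes φ o).symm
    rw [h2] at h1
    exact (IsLocalRing.mem_maximalIdeal _).mp h1 (hn.map (φ : A →+* B))
  · exact h𝒟.of_baseChangeAlong_injective hA hB φ hφ hinj
      (h𝒟.of_isEquiv hB (isEquiv_symm (ofMat_baseChange (φ : A →+* B) hφ r hc)) h.type)

lemma Good.fibre (h𝒟 : IsDeformationCondition 𝒪 𝒟) {A B C P : Type}
    [CommRing A] [IsLocalRing A] [Algebra 𝒪 A] [CommRing B] [IsLocalRing B] [Algebra 𝒪 B]
    [CommRing C] [IsLocalRing C] [Algebra 𝒪 C] [CommRing P] [IsLocalRing P] [Algebra 𝒪 P]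
    (hA : IsArtinianTestAlgebra 𝒪 A) (hB : IsArtinianTestAlgebra 𝒪 B)
    (hC : IsArtinianTestAlgebra 𝒪 C) (hP : IsArtinianTestAlgebra 𝒪 P)
    (f : A →ₐ[𝒪] C) (g : B →ₐ[𝒪] C) (pA : P →ₐ[𝒪] A) (pB : P →ₐ[𝒪] B)
    (hcomm : f.comp pA = g.comp pB) (hinj : Function.Injective (fun x => (pA x, pB x)))
    (hsurj : ∀ a b, f a = g b → ∃ x, pA x = a ∧ pB x = b)
    {r : GQ →* M2 P} (h1 : Good sd 𝒟 (mapRep (pA : P →+* A) r))
    (h2 : Good sd 𝒟 (mapRep (pB : P →+* B) r)) : Good sd 𝒟 r := by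
  have hpA := isLocalHom_of_surjective_residue hA.residue_surjective pA
  have hpB := isLocalHom_of_surjective_residue hB.residue_surjective pB
  have hext : ∀ x y : P, pA x = pA y → pB x = pB y → x = y := fun x y e1 e2 =>
    hinj (Prod.ext e1 e2)
  obtain ⟨L, hL, hL'⟩ := finiteLevel_of_matCont _ (test_nilp hA) h1.cont
  obtain ⟨L2, hL2, hL2'⟩ := finiteLevel_of_matCont _ (test_nilp hB) h2.cont
  have hc : MatCont P r := matCont_of_finiteLevel r (L ⊔ L2) inferInstance (fun σ hσ => by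
    have e1 := hL' σ (fun x hx => hσ x ((le_sup_left : L ≤ L ⊔ L2) hx))
    have e2 := hL2' σ (fun x hx => hσ x ((le_sup_right : L2 ≤ L ⊔ L2) hx))
    ext i j
    have e1' := congrFun (congrFun e1 i) j
    have e2' := congrFun (congrFun e2 i) j
    rw [mapRep_apply] at e1' e2'
    have o1 : pA ((1 : M2 P) i j) = (1 : M2 A) i j := by
      simp only [Matrix.one_apply]; split_ifs <;> simp
    have o2 : pB ((1 : M2 P) i j) = (1 : M2 B) i j := by
      simp only [Matrix.one_apply]; split_ifs <;> simp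
    exact hext _ _ (by rw [o1]; exact e1') (by rw [o2]; exact e2'))
  refine ⟨hc, ?_, ?_, ?_⟩
  · intro σ i j o ho
    have h1 := h1.red σ i j o ho
    by_contra hn
    rw [IsLocalRing.mem_maximalIdeal, mem_nonunits_iff, not_not] at hn
    have h2 : mapRep (pA : P →+* A) r σ i j - algebraMap 𝒪 A o =
        (pA : P →+* A) (r σ i j - algebraMap 𝒪 P o) := by
      rw [map_sub, mapRep_apply]
      congr 1
      exact (AlgHom.commutes pA o).symm
    rw [h2] at h1
    exact (IsLocalRing.mem_maximalIdeal _).mp h1 (hn.map (pA : P →+* A))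
  · exact ⟨hext _ _ (by rw [← lc_map, h1.norm.s1, map_zero]) (by rw [← lc_map, h2.norm.s1, map_zero]),
      hext _ _ (by rw [← lc_map, h1.norm.s2, map_zero]) (by rw [← lc_map, h2.norm.s2, map_zero]),
      hext _ _ (by rw [← lc_map, h1.norm.s3, map_one]) (by rw [← lc_map, h2.norm.s3, map_one])⟩
  · exact h𝒟.of_fibreProduct hA hB hC hP f g pA pB hpA hpB hcomm hinj hsurj
      (h𝒟.of_isEquiv hA (isEquiv_symm (ofMat_baseChange (pA : P →+* A) hpA r hc)) h1.type)
      (h𝒟.of_isEquiv hB (isEquiv_symm (ofMat_baseChange (pB : P →+* B) hpB r hc)) h2.type)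

end good

end Fermat.Agent.DefRing
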