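import Mathlib
import Fermat.Agent.DefRing.Good
import Fermat.Agent.DefRing.Family

/-!
# The family of ideals attached to a deformation condition, and the universal ring
-/

set_option autoImplicit false
set_option linter.unusedSectionVars false

namespace Fermat.Agent.DefRing

open IsLocalRing Module Matrix GaloisRep
open scoped TensorProduct

section universal

variable {𝒪 : Type} [CommRing 𝒪] [IsLocalRing 𝒪]

/-- the free polynomial ring on matrix entries -/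
abbrev PolyF (𝒪 : Type) [CommRing 𝒪] := MvPolynomial (GQ × Fin 2 × Fin 2) 𝒪

/-- evaluation at a matrix representation -/
noncomputable def ev {A : Type} [CommRing A] [Algebra 𝒪 A] (r : GQ → M2 A) : PolyF 𝒪 →ₐ[𝒪] A :=
  MvPolynomial.aeval (fun x => r x.1 x.2.1 x.2.2)

lemma ev_X {A : Type} [CommRing A] [Algebra 𝒪 A] (r : GQ → M2 A) (σ : GQ) (i j : Fin 2) :
    ev (𝒪 := 𝒪) r (MvPolynomial.X (σ, i, j)) = r σ i j := by
  simp [ev]

lemma ev_comp {A B : Type} [CommRing A] [Algebra 𝒪 A] [CommRing B] [Algebra 𝒪 B]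
    (φ : A →ₐ[𝒪] B) (r : GQ →* M2 A) :
    ev (𝒪 := 𝒪) (mapRep (φ : A →+* B) r) = φ.comp (ev r) := by
  apply MvPolynomial.algHom_ext
  rintro ⟨σ, i, j⟩
  rw [ev_X, AlgHom.comp_apply, ev_X]; rfl

/-- the residual evaluation -/
noncomputable def evbar (rbar : GQ →* M2 (ResidueField 𝒪)) : PolyF 𝒪 →+* ResidueField 𝒪 :=
  (ev (𝒪 := 𝒪) rbar : PolyF 𝒪 →ₐ[𝒪] ResidueField 𝒪)

lemma evbar_algebraMap (rbar : GQ →* M2 (ResidueField 𝒪)) (o : 𝒪) :
    evbar rbar (algebraMap 𝒪 (PolyF 𝒪) o) = residue 𝒪 o :=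
  (ev (𝒪 := 𝒪) rbar).commutes o

lemma evbar_X (rbar : GQ →* M2 (ResidueField 𝒪)) (σ : GQ) (i j : Fin 2) :
    evbar rbar (MvPolynomial.X (σ, i, j)) = rbar σ i j := ev_X _ _ _ _

variable {rbar : GQ →* M2 (ResidueField 𝒪)}

lemma residue_ev {A : Type} [CommRing A] [IsLocalRing A] [Algebra 𝒪 A]
    (hA : IsLocalHom (algebraMap 𝒪 A)) {r : GQ →* M2 A} (hr : Red rbar r) (p : PolyF 𝒪) :
    ev r p ∈ maximalIdeal A ↔ evbar rbar p = 0 := by
  obtain ⟨ψ, hψ⟩ := exists_psi (𝒪 := 𝒪) (A := A) hA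
  have h1 : (residue A).comp ((ev r : PolyF 𝒪 →ₐ[𝒪] A) : PolyF 𝒪 →+* A) = ψ.comp (evbar rbar) := by
    apply MvPolynomial.ringHom_ext
    · intro o
      rw [RingHom.comp_apply, RingHom.comp_apply]
      have e1 : evbar rbar (MvPolynomial.C o) = residue 𝒪 o := evbar_algebraMap rbar o
      have e2 : ((ev r : PolyF 𝒪 →ₐ[𝒪] A) : PolyF 𝒪 →+* A) (MvPolynomial.C o) = algebraMap 𝒪 A o :=
        (ev r : PolyF 𝒪 →ₐ[𝒪] A).commutes o
      rw [e1, e2, hψ]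
    · rintro ⟨σ, i, j⟩
      rw [RingHom.comp_apply, RingHom.comp_apply, evbar_X]
      obtain ⟨o, ho⟩ := residue_surjective (rbar σ i j)
      have h2 := hr σ i j o ho
      rw [← residue_eq_zero_iff, map_sub, sub_eq_zero] at h2
      rw [← ho, hψ, ← h2]
      exact congrArg _ (ev_X _ _ _ _)
  have h2 := RingHom.congr_fun h1 p
  rw [RingHom.comp_apply, RingHom.comp_apply] at h2
  rw [← residue_eq_zero_iff]
  show residue A (((ev r : PolyF 𝒪 →ₐ[𝒪] A) : PolyF 𝒪 →+* A) p) = 0 ↔ _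
  rw [h2]
  exact map_eq_zero ψ

/-- the quotient of the polynomial ring by a suitable ideal is a test algebra. -/
lemma test_quotient (I : Ideal (PolyF 𝒪)) (hI : I ≤ RingHom.ker (evbar rbar))
    (hnil : ∃ n, RingHom.ker (evbar rbar) ^ n ≤ I) (hfin : Finite (PolyF 𝒪 ⧸ I)) :
    ∃ _ : IsLocalRing (PolyF 𝒪 ⧸ I), IsArtinianTestAlgebra 𝒪 (PolyF 𝒪 ⧸ I) := by
  apply test_of_ringHom (Ideal.Quotient.lift I (evbar rbar) (fun p hp => hI hp))
  · intro o; exact evbar_algebraMap rbar o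
  · intro a ha
    obtain ⟨p, rfl⟩ := Ideal.Quotient.mk_surjective a
    rw [Ideal.Quotient.lift_mk] at ha
    obtain ⟨n, hn⟩ := hnil
    refine ⟨n, ?_⟩
    rw [← map_pow, Ideal.Quotient.eq_zero_iff_mem]
    exact hn (Ideal.pow_mem_pow ha n)

variable (sd : SliceData rbar)
  (𝒟 : ∀ ⦃A : Type⦄ [CommRing A] [IsLocalRing A] [Algebra 𝒪 A], GaloisRepAdic A → Prop)

/-- The family of ideals. -/
def Fam : Set (Ideal (PolyF 𝒪)) :=
  {I | ∃ (_ : IsLocalRing (PolyF 𝒪 ⧸ I)) (r : GQ →* M2 (PolyF 𝒪 ⧸ I)),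
    IsArtinianTestAlgebra 𝒪 (PolyF 𝒪 ⧸ I) ∧
    (∀ σ i j, r σ i j = Ideal.Quotient.mk I (MvPolynomial.X (σ, i, j))) ∧ Good sd 𝒟 r}

variable {sd} {𝒟}

lemma ev_taut {I : Ideal (PolyF 𝒪)} {r : GQ →* M2 (PolyF 𝒪 ⧸ I)}
    (hr : ∀ σ i j, r σ i j = Ideal.Quotient.mk I (MvPolynomial.X (σ, i, j))) :
    ev (𝒪 := 𝒪) r = Ideal.Quotient.mkₐ 𝒪 I := by
  apply MvPolynomial.algHom_ext
  rintro ⟨σ, i, j⟩
  rw [ev_X, hr]; rfl

lemma fam_le {I : Ideal (PolyF 𝒪)} (hI : I ∈ Fam sd 𝒟) : I ≤ RingHom.ker (evbar rbar) := by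
  obtain ⟨_, r, hA, hr, hg⟩ := hI
  intro p hp
  rw [RingHom.mem_ker, ← residue_ev hA.isLocalHom hg.red, ev_taut hr]
  rw [Ideal.Quotient.mkₐ_eq_mk, Ideal.Quotient.eq_zero_iff_mem.mpr hp]
  exact Ideal.zero_mem _

lemma fam_nilp {I : Ideal (PolyF 𝒪)} (hI : I ∈ Fam sd 𝒟) :
    ∃ n, RingHom.ker (evbar rbar) ^ n ≤ I := by
  obtain ⟨_, r, hA, hr, hg⟩ := hI
  obtain ⟨n, _, hn⟩ := test_nilp hA
  refine ⟨n, ?_⟩
  have h1 : (RingHom.ker (evbar rbar)).map (Ideal.Quotient.mk I) ≤ maximalIdeal _ := by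
    rw [Ideal.map_le_iff_le_comap]
    intro p hp
    rw [RingHom.mem_ker, ← residue_ev hA.isLocalHom hg.red, ev_taut hr] at hp
    exact hp
  have h2 := Ideal.pow_right_mono h1 n
  rw [hn, ← Ideal.map_pow] at h2
  intro p hp
  have h3 := h2 (Ideal.mem_map_of_mem _ hp)
  rw [Ideal.mem_bot] at h3
  exact Ideal.Quotient.eq_zero_iff_mem.mp h3

lemma fam_finite [Finite (ResidueField 𝒪)] {I : Ideal (PolyF 𝒪)} (hI : I ∈ Fam sd 𝒟) :
    Finite (PolyF 𝒪 ⧸ I) := by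
  obtain ⟨_, r, hA, hr, hg⟩ := hI
  exact test_finite hA

/-- pushing forward the tautological representation. -/
lemma fam_push (h𝒟 : IsDeformationCondition 𝒪 𝒟) {I : Ideal (PolyF 𝒪)} (hI : I ∈ Fam sd 𝒟)
    {B : Type} [CommRing B] [IsLocalRing B] [Algebra 𝒪 B] (hB : IsArtinianTestAlgebra 𝒪 B)
    (g : PolyF 𝒪 →ₐ[𝒪] B) (hg : ∀ p ∈ I, g p = 0) :
    ∃ r : GQ →* M2 B, (∀ σ i j, r σ i j = g (MvPolynomial.X (σ, i, j))) ∧ Good sd 𝒟 r := by
  obtain ⟨_, r, hA, hr, hgood⟩ := hI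
  refine ⟨mapRep ((Ideal.Quotient.liftₐ I g hg : (PolyF 𝒪 ⧸ I) →ₐ[𝒪] B) : (PolyF 𝒪 ⧸ I) →+* B) r,
    ?_, hgood.map h𝒟 hA hB _⟩
  intro σ i j
  rw [mapRep_apply, hr]
  rfl

/-- a good representation over a test algebra gives a member of the family. -/
lemma fam_of_good [Finite (ResidueField 𝒪)] (h𝒟 : IsDeformationCondition 𝒪 𝒟)
    {A : Type} [CommRing A] [IsLocalRing A] [Algebra 𝒪 A] (hA : IsArtinianTestAlgebra 𝒪 A)
    {r : GQ →* M2 A} (hr : Good sd 𝒟 r) : RingHom.ker (ev (𝒪 := 𝒪) r) ∈ Fam sd 𝒟 := by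
  set I := RingHom.ker (ev (𝒪 := 𝒪) r) with hI
  have hfinA : Finite A := test_finite hA
  let φ : (PolyF 𝒪 ⧸ I) →ₐ[𝒪] A := Ideal.kerLiftAlg (ev (𝒪 := 𝒪) r)
  have hφ : Function.Injective φ := Ideal.kerLiftAlg_injective (ev (𝒪 := 𝒪) r)
  have hφmk : ∀ p, φ (Ideal.Quotient.mk I p) = ev r p := fun p => rfl
  have hfin : Finite (PolyF 𝒪 ⧸ I) := Finite.of_injective _ hφ
  have hle : I ≤ RingHom.ker (evbar rbar) := by
    intro p hp
    rw [RingHom.mem_ker, ← residue_ev hA.isLocalHom hr.red]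
    rw [hI, RingHom.mem_ker] at hp
    rw [hp]; exact Ideal.zero_mem _
  have hnil : ∃ n, RingHom.ker (evbar rbar) ^ n ≤ I := by
    obtain ⟨n, _, hn⟩ := test_nilp hA
    refine ⟨n, ?_⟩
    have h1 : RingHom.ker (evbar rbar) ≤ (maximalIdeal A).comap (ev (𝒪 := 𝒪) r) := by
      intro p hp
      rw [RingHom.mem_ker, ← residue_ev hA.isLocalHom hr.red] at hp
      exact hp
    intro p hp
    have h2 := Ideal.pow_right_mono h1 n hp
    have h3 := Ideal.le_comap_pow (ev (𝒪 := 𝒪) r) n h2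
    rw [hn] at h3
    exact h3
  obtain ⟨hloc, htest⟩ := test_quotient I hle hnil hfin
  let rI : GQ →* M2 (PolyF 𝒪 ⧸ I) :=
    { toFun := fun σ => Matrix.of fun i j => Ideal.Quotient.mk I (MvPolynomial.X (σ, i, j))
      map_one' := by
        ext i j
        apply hφ
        rw [Matrix.of_apply, hφmk, ev_X, map_one]
        simp only [Matrix.one_apply]; split_ifs <;> simp
      map_mul' := fun σ τ => by
        ext i j
        apply hφ
        rw [Matrix.of_apply, hφmk, ev_X, map_mul, Matrix.mul_apply, Matrix.mul_apply, map_sum]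
        refine Finset.sum_congr rfl fun l _ => ?_
        rw [map_mul, Matrix.of_apply, Matrix.of_apply, hφmk, hφmk, ev_X, ev_X] }
  have hrI : mapRep (φ : (PolyF 𝒪 ⧸ I) →+* A) rI = r := by
    ext σ i j
    exact ev_X _ _ _ _
  exact ⟨hloc, rI, htest, fun _ _ _ => rfl, Good.of_injective h𝒟 htest hA φ hφ (by rw [hrI]; exact hr)⟩

lemma fam_up [Finite (ResidueField 𝒪)] (h𝒟 : IsDeformationCondition 𝒪 𝒟) {I : Ideal (PolyF 𝒪)}
    (hI : I ∈ Fam sd 𝒟) (J : Ideal (PolyF 𝒪)) (hIJ : I ≤ J) (hJ : J ≤ RingHom.ker (evbar rbar)) :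
    J ∈ Fam sd 𝒟 := by
  have hfinI := fam_finite hI
  have hfinJ : Finite (PolyF 𝒪 ⧸ J) :=
    Finite.of_surjective _ (Ideal.Quotient.factor_surjective hIJ)
  obtain ⟨n, hn⟩ := fam_nilp hI
  obtain ⟨hloc, htest⟩ := test_quotient J hJ ⟨n, hn.trans hIJ⟩ hfinJ
  obtain ⟨r, hr, hg⟩ := fam_push h𝒟 hI htest (Ideal.Quotient.mkₐ 𝒪 J) (fun p hp =>
    Ideal.Quotient.eq_zero_iff_mem.mpr (hIJ hp))
  exact ⟨hloc, r, htest, hr, hg⟩

lemma fam_inf [Finite (ResidueField 𝒪)] (h𝒟 : IsDeformationCondition 𝒪 𝒟) {I J : Ideal (PolyF 𝒪)}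
    (hI : I ∈ Fam sd 𝒟) (hJ : J ∈ Fam sd 𝒟) : I ⊓ J ∈ Fam sd 𝒟 := by
  have hfinI := fam_finite hI
  have hfinJ := fam_finite hJ
  have hleI := fam_le hI
  have hleJ := fam_le hJ
  obtain ⟨n, hn⟩ := fam_nilp hI
  obtain ⟨m, hm⟩ := fam_nilp hJ
  -- the four rings
  have hinj : Function.Injective (fun x : PolyF 𝒪 ⧸ (I ⊓ J) =>
      (Ideal.Quotient.factorₐ 𝒪 (inf_le_left : I ⊓ J ≤ I) x,
        Ideal.Quotient.factorₐ 𝒪 (inf_le_right : I ⊓ J ≤ J) x)) := by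
    intro x y hxy
    obtain ⟨x, rfl⟩ := Ideal.Quotient.mk_surjective x
    obtain ⟨y, rfl⟩ := Ideal.Quotient.mk_surjective y
    have e1 : Ideal.Quotient.mk I x = Ideal.Quotient.mk I y := congrArg Prod.fst hxy
    have e2 : Ideal.Quotient.mk J x = Ideal.Quotient.mk J y := congrArg Prod.snd hxy
    rw [Ideal.Quotient.mk_eq_mk_iff_sub_mem] at e1 e2 ⊢
    exact ⟨e1, e2⟩
  have hfinP : Finite (PolyF 𝒪 ⧸ (I ⊓ J)) := Finite.of_injective _ hinj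
  have hfinC : Finite (PolyF 𝒪 ⧸ (I ⊔ J)) :=
    Finite.of_surjective _ (Ideal.Quotient.factor_surjective (le_sup_left : I ≤ I ⊔ J))
  obtain ⟨hlocP, hP⟩ := test_quotient (I ⊓ J) (inf_le_left.trans hleI)
    ⟨n + m, le_inf (le_trans (Ideal.pow_le_pow_right (Nat.le_add_right n m)) hn)
      (le_trans (Ideal.pow_le_pow_right (Nat.le_add_left m n)) hm)⟩ hfinP
  obtain ⟨hlocC, hC⟩ := test_quotient (I ⊔ J) (sup_le hleI hleJ) ⟨n, hn.trans le_sup_left⟩ hfinC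
  obtain ⟨hlocI, rI, hA, hrI, hgI⟩ := hI
  obtain ⟨hlocJ, rJ, hB, hrJ, hgJ⟩ := hJ
  have hext : ∀ x y : PolyF 𝒪, Ideal.Quotient.mk I x = Ideal.Quotient.mk I y →
      Ideal.Quotient.mk J x = Ideal.Quotient.mk J y →
      Ideal.Quotient.mk (I ⊓ J) x = Ideal.Quotient.mk (I ⊓ J) y := by
    intro x y e1 e2
    rw [Ideal.Quotient.mk_eq_mk_iff_sub_mem] at e1 e2 ⊢
    exact ⟨e1, e2⟩
  have hone : ∀ (K : Ideal (PolyF 𝒪)) (i j : Fin 2),
      Ideal.Quotient.mk K ((1 : Matrix (Fin 2) (Fin 2) (PolyF 𝒪)) i j) =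
      (1 : M2 (PolyF 𝒪 ⧸ K)) i j := by
    intro K i j
    simp only [Matrix.one_apply]; split_ifs <;> simp
  let r : GQ →* M2 (PolyF 𝒪 ⧸ (I ⊓ J)) :=
    { toFun := fun σ => Matrix.of fun i j => Ideal.Quotient.mk (I ⊓ J) (MvPolynomial.X (σ, i, j))
      map_one' := by
        ext i j
        rw [Matrix.of_apply, ← hone]
        apply hext
        · rw [← hrI, map_one, hone]
        · rw [← hrJ, map_one, hone]
      map_mul' := fun σ τ => by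
        ext i j
        rw [Matrix.of_apply, Matrix.mul_apply]
        simp only [Matrix.of_apply, ← map_mul]
        rw [← map_sum]
        apply hext
        · rw [← hrI, map_mul, Matrix.mul_apply, map_sum]
          simp only [map_mul, hrI]
        · rw [← hrJ, map_mul, Matrix.mul_apply, map_sum]
          simp only [map_mul, hrJ] }
  refine ⟨hlocP, r, hP, fun _ _ _ => rfl, ?_⟩
  refine Good.fibre h𝒟 hA hB hC hP (Ideal.Quotient.factorₐ 𝒪 (le_sup_left : I ≤ I ⊔ J))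
    (Ideal.Quotient.factorₐ 𝒪 (le_sup_right : J ≤ I ⊔ J))
    (Ideal.Quotient.factorₐ 𝒪 (inf_le_left : I ⊓ J ≤ I))
    (Ideal.Quotient.factorₐ 𝒪 (inf_le_right : I ⊓ J ≤ J)) ?_ hinj ?_ ?_ ?_
  · ext x
    obtain ⟨x, rfl⟩ := Ideal.Quotient.mk_surjective x
    rfl
  · intro a b hab
    obtain ⟨a, rfl⟩ := Ideal.Quotient.mk_surjective a
    obtain ⟨b, rfl⟩ := Ideal.Quotient.mk_surjective b
    have e : Ideal.Quotient.mk (I ⊔ J) a = Ideal.Quotient.mk (I ⊔ J) b := hab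
    rw [Ideal.Quotient.mk_eq_mk_iff_sub_mem] at e
    obtain ⟨u, hu, v, hv, huv⟩ := Submodule.mem_sup.mp e
    refine ⟨Ideal.Quotient.mk _ (a - u), ?_, ?_⟩
    · show Ideal.Quotient.mk I (a - u) = Ideal.Quotient.mk I a
      rw [Ideal.Quotient.mk_eq_mk_iff_sub_mem]
      have : a - u - a = -u := by ring
      rw [this]; exact (Ideal.neg_mem_iff _).mpr hu
    · show Ideal.Quotient.mk J (a - u) = Ideal.Quotient.mk J b
      rw [Ideal.Quotient.mk_eq_mk_iff_sub_mem]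
      have : a - u - b = v := by linear_combination -huv
      rw [this]; exact hv
  · have : mapRep ((Ideal.Quotient.factorₐ 𝒪 (inf_le_left : I ⊓ J ≤ I) :
        (PolyF 𝒪 ⧸ (I ⊓ J)) →ₐ[𝒪] (PolyF 𝒪 ⧸ I)) : (PolyF 𝒪 ⧸ (I ⊓ J)) →+* (PolyF 𝒪 ⧸ I)) r = rI := by
      ext σ i j
      rw [mapRep_apply, hrI]; rfl
    rw [this]; exact hgI
  · have : mapRep ((Ideal.Quotient.factorₐ 𝒪 (inf_le_right : I ⊓ J ≤ J) :
        (PolyF 𝒪 ⧸ (I ⊓ J)) →ₐ[𝒪] (PolyF 𝒪 ⧸ J)) : (PolyF 𝒪 ⧸ (I ⊓ J)) →+* (PolyF 𝒪 ⧸ J)) r = rJ := by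
      ext σ i j
      rw [mapRep_apply, hrJ]; rfl
    rw [this]; exact hgJ

end universal

end Fermat.Agent.DefRing
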