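import Mathlib
import Fermat.Agent.DefRing.Universal
import Fermat.Prelude.Def_GaloisRep_DeformationRingData

/-!
# Existence of the universal deformation ring
-/

set_option autoImplicit false
set_option linter.unusedSectionVars false

namespace Fermat.Agent.DefRing

open IsLocalRing Module Matrix GaloisRep
open scoped TensorProduct

section

variable {𝒪 : Type} [CommRing 𝒪] [IsLocalRing 𝒪]
variable {rbar : GQ →* M2 (ResidueField 𝒪)} {sd : SliceData rbar}
  {𝒟 : ∀ ⦃A : Type⦄ [CommRing A] [IsLocalRing A] [Algebra 𝒪 A], GaloisRepAdic A → Prop}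

lemma eq_of_forall_pow {R : Type} [CommRing R] [IsLocalRing R] [IsAdicComplete (maximalIdeal R) R]
    {x y : R} (h : ∀ n, x - y ∈ maximalIdeal R ^ n) : x = y := by
  rw [← sub_eq_zero]
  apply IsHausdorff.haus (I := maximalIdeal R) inferInstance
  intro n
  rw [SModEq.sub_mem, sub_zero, smul_eq_mul, Ideal.mul_top]
  exact h n

/-- lift an algebra map along an almost surjective one. -/
lemma exists_liftAlg {F R A' : Type} [CommRing F] [Algebra 𝒪 F] [CommRing R] [Algebra 𝒪 R]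
    [CommRing A'] [Algebra 𝒪 A'] (f : F →ₐ[𝒪] R) (g : F →ₐ[𝒪] A') (N : Ideal R)
    (hN : ∀ z, ∃ x, z - f x ∈ N) (hk : ∀ x, f x ∈ N → g x = 0) :
    ∃ h : R →ₐ[𝒪] A', (∀ x, h (f x) = g x) ∧ (∀ z ∈ N, h z = 0) := by
  let q : F →ₐ[𝒪] R ⧸ N := (Ideal.Quotient.mkₐ 𝒪 N).comp f
  have hq : Function.Surjective q := by
    intro z
    obtain ⟨z, rfl⟩ := Ideal.Quotient.mk_surjective z
    obtain ⟨x, hx⟩ := hN z
    refine ⟨x, ?_⟩
    show Ideal.Quotient.mk N (f x) = Ideal.Quotient.mk N z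
    rw [eq_comm, Ideal.Quotient.mk_eq_mk_iff_sub_mem]
    exact hx
  have hker : RingHom.ker q.toRingHom ≤ RingHom.ker g.toRingHom := by
    intro x hx
    rw [RingHom.mem_ker] at hx ⊢
    exact hk x (Ideal.Quotient.eq_zero_iff_mem.mp hx)
  refine ⟨(AlgHom.liftOfSurjective q hq g hker).comp (Ideal.Quotient.mkₐ 𝒪 N), ?_, ?_⟩
  · intro x
    exact AlgHom.liftOfSurjective_apply q hq g hker x
  · intro z hz
    rw [AlgHom.comp_apply, Ideal.Quotient.mkₐ_eq_mk, Ideal.Quotient.eq_zero_iff_mem.mpr hz, map_zero]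

/-- the universal matrix -/
noncomputable def Xmat (𝒪 : Type) [CommRing 𝒪] (σ : GQ) : Matrix (Fin 2) (Fin 2) (PolyF 𝒪) :=
  Matrix.of fun i j => MvPolynomial.X (σ, i, j)

lemma lc_Xmat {A : Type} [CommRing A] [Algebra 𝒪 A] (g : PolyF 𝒪 →ₐ[𝒪] A) (r : GQ → M2 A)
    (hr : ∀ σ i j, r σ i j = g (MvPolynomial.X (σ, i, j))) (c : GQ →₀ 𝒪) (i j : Fin 2) :
    (Finsupp.linearCombination 𝒪 r c) i j = g ((Finsupp.linearCombination 𝒪 (Xmat 𝒪) c) i j) := by
  rw [lc_apply, lc_apply (A := PolyF 𝒪), Finsupp.sum, Finsupp.sum, map_sum]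
  refine Finset.sum_congr rfl fun σ _ => ?_
  rw [map_mul, AlgHom.commutes, hr]; rfl

/-- finiteness of the tangent space, transported to the family. -/
lemma finite_tangent (ρbar : ResidualGaloisRep (ResidueField 𝒪))
    (bbar : Basis (Fin 2) (ResidueField 𝒪) ρbar.V) (sd : SliceData (matOfRes ρbar bbar))
    (h𝒟 : IsDeformationCondition 𝒪 𝒟)
    (E : Type) [CommRing E] [IsLocalRing E] [Algebra 𝒪 E] (hE : IsArtinianTestAlgebra 𝒪 E)
    (ψ : ResidueField 𝒪 →+* ResidueField E)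
    (hψ : ∀ o, ψ (residue 𝒪 o) = residue E (algebraMap 𝒪 E o))
    {Q : Type*} [Finite Q]
    (cls : {ρ : GaloisRepAdic E // 𝒟 ρ ∧ ρ.residual.IsEquiv (ρbar.baseChangeAlong ψ)} → Q)
    (hcls : ∀ ρ ρ', cls ρ = cls ρ' → ρ.1.IsEquiv ρ'.1) :
    {t : PolyF 𝒪 →ₐ[𝒪] E | RingHom.ker t ∈ Fam sd 𝒟}.Finite := by
  have hloc := hE.isLocalHom
  have key : ∀ t : {t : PolyF 𝒪 →ₐ[𝒪] E | RingHom.ker t ∈ Fam sd 𝒟},
      ∃ r : GQ →* M2 E, (∀ σ i j, r σ i j = t.1 (MvPolynomial.X (σ, i, j))) ∧ Good sd 𝒟 r :=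
    fun t => fam_push h𝒟 t.2 hE t.1 (fun p hp => hp)
  choose r hr hg using key
  let c : {t : PolyF 𝒪 →ₐ[𝒪] E | RingHom.ker t ∈ Fam sd 𝒟} → Q := fun t =>
    cls ⟨ofMat (r t) (hg t).cont, (hg t).type,
      residual_of_red ρbar bbar ψ hψ (r t) (hg t).cont (hg t).red⟩
  have hc : Function.Injective c := by
    intro t t' htt
    have h1 := hcls _ _ htt
    obtain ⟨X, hX, h2⟩ := (ofMat_isEquiv_iff (r t) (r t') (hg t).cont (hg t').cont).mp h1
    have h3 := slice_unique sd (hg t).red (hg t').red (hg t).norm (hg t').norm X hX h2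
    apply Subtype.ext
    apply MvPolynomial.algHom_ext
    rintro ⟨σ, i, j⟩
    rw [← hr t, ← hr t', h3]
  exact Finite.of_injective c hc

end

/-- Main theorem. -/
theorem main
    (𝒪 : Type) [CommRing 𝒪] [IsDomain 𝒪] [IsDiscreteValuationRing 𝒪]
    [IsAdicComplete (IsLocalRing.maximalIdeal 𝒪) 𝒪] [Finite (IsLocalRing.ResidueField 𝒪)]
    (ρbar : ResidualGaloisRep (IsLocalRing.ResidueField 𝒪))
    (𝒟 : ∀ ⦃A : Type⦄ [CommRing A] [IsLocalRing A] [Algebra 𝒪 A], GaloisRepAdic A → Prop)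
    (habs : ρbar.IsAbsolutelyIrreducible)
    (h𝒟 : GaloisRep.IsDeformationCondition 𝒪 𝒟)
    (hbar : 𝒟 (GaloisRepAdic.ofResidualGaloisRep ρbar))
    (hfin : GaloisRep.TangentFinite 𝒪 ρbar 𝒟) :
    Nonempty (GaloisRep.DeformationRingData 𝒪 ρbar 𝒟) := by
  obtain ⟨bbar⟩ := exists_basisRes ρbar
  set rbar := matOfRes ρbar bbar with hrbar
  obtain ⟨sd⟩ := exists_sliceData rbar (span_matOfRes ρbar habs bbar)
  -- the residue field as a test algebra
  have hk : IsArtinianTestAlgebra 𝒪 (ResidueField 𝒪) := by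
    refine ⟨?_, ?_, inferInstance⟩
    · exact (inferInstance : IsLocalHom (residue 𝒪))
    · intro x
      obtain ⟨y, rfl⟩ := residue_surjective x
      obtain ⟨o, rfl⟩ := residue_surjective y
      exact ⟨o, rfl⟩
  have hgbar : Good sd 𝒟 rbar := by
    have hc : MatCont (ResidueField 𝒪) rbar :=
      matOf_cont (GaloisRepAdic.ofResidualGaloisRep ρbar) bbar
    refine ⟨hc, ?_, ?_, ?_⟩
    · intro σ i j o ho
      have : algebraMap 𝒪 (ResidueField 𝒪) o = residue 𝒪 o := rfl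
      rw [this, ho, sub_self]
      exact Ideal.zero_mem _
    · refine ⟨?_, ?_, ?_⟩
      · rw [sd.hα]; simp
      · rw [sd.hβ]; simp
      · rw [sd.hβ]; simp
    · exact h𝒟.of_isEquiv hk (isEquiv_ofMat (GaloisRepAdic.ofResidualGaloisRep ρbar) bbar) hbar
  have hM : RingHom.ker (evbar rbar) ∈ Fam sd 𝒟 := by
    have := fam_of_good h𝒟 hk hgbar
    exact this
  -- the tangent space
  have hT : {t : PolyF 𝒪 →+* DualNumber (ResidueField 𝒪) |
      (∀ o, t (algebraMap 𝒪 (PolyF 𝒪) o) = TrivSqZeroExt.inl (residue 𝒪 o)) ∧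
        RingHom.ker t ∈ Fam sd 𝒟}.Finite := by
    unfold GaloisRep.TangentFinite at hfin
    let algE : Algebra 𝒪 (DualNumber (ResidueField 𝒪)) :=
      ((algebraMap (ResidueField 𝒪) (DualNumber (ResidueField 𝒪))).comp
        (algebraMap 𝒪 (ResidueField 𝒪))).toAlgebra
    have halg : ∀ o, algebraMap 𝒪 (DualNumber (ResidueField 𝒪)) o =
      TrivSqZeroExt.inl (residue 𝒪 o) := fun o => rfl
    have hfinE : Finite (DualNumber (ResidueField 𝒪)) :=
      Finite.of_injective (fun x : DualNumber (ResidueField 𝒪) => (x.fst, x.snd))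
        (fun x y hxy => TrivSqZeroExt.ext (congrArg Prod.fst hxy) (congrArg Prod.snd hxy))
    have hmax : ∀ x : DualNumber (ResidueField 𝒪), x ∈ maximalIdeal _ ↔ x.fst = 0 := by
      intro x
      rw [IsLocalRing.mem_maximalIdeal, mem_nonunits_iff, TrivSqZeroExt.isUnit_iff_isUnit_fst,
        isUnit_iff_ne_zero, not_not]
    have hE : IsArtinianTestAlgebra 𝒪 (DualNumber (ResidueField 𝒪)) := by
      refine ⟨?_, ?_, inferInstance⟩
      · constructor
        intro o ho
        rw [halg, TrivSqZeroExt.isUnit_iff_isUnit_fst, TrivSqZeroExt.fst_inl] at ho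
        exact isUnit_of_map_unit (residue 𝒪) o ho
      · intro x
        obtain ⟨y, rfl⟩ := residue_surjective x
        obtain ⟨o, ho⟩ := residue_surjective y.fst
        refine ⟨o, ?_⟩
        show residue _ (algebraMap 𝒪 (DualNumber (ResidueField 𝒪)) o) = residue _ y
        rw [← sub_eq_zero, ← map_sub, residue_eq_zero_iff, hmax, TrivSqZeroExt.fst_sub, halg,
          TrivSqZeroExt.fst_inl, ho, sub_self]
    have h1 : {t : PolyF 𝒪 →ₐ[𝒪] DualNumber (ResidueField 𝒪) | RingHom.ker t ∈ Fam sd 𝒟}.Finite := by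
      obtain ⟨s, hs, hfin'⟩ : ∃ s : Setoid {ρ : GaloisRepAdic (DualNumber (ResidueField 𝒪)) //
          𝒟 ρ ∧ ρ.residual.IsEquiv (ρbar.baseChangeAlong
            ((IsLocalRing.residue (DualNumber (ResidueField 𝒪))).comp
          (algebraMap (ResidueField 𝒪) (DualNumber (ResidueField 𝒪)))))},
          (∀ a b, s.r a b → a.1.IsEquiv b.1) ∧ Finite (Quotient s) :=
        ⟨_, fun _ _ h => h, hfin⟩
      exact finite_tangent ρbar bbar sd h𝒟 (DualNumber (ResidueField 𝒪)) hE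
        ((IsLocalRing.residue (DualNumber (ResidueField 𝒪))).comp
          (algebraMap (ResidueField 𝒪) (DualNumber (ResidueField 𝒪)))) (fun o => rfl)
        (fun ρ => Quotient.mk s ρ) (fun ρ ρ' h => hs _ _ (Quotient.exact h))
    refine (h1.image (fun t : PolyF 𝒪 →ₐ[𝒪] DualNumber (ResidueField 𝒪) =>
      (t : PolyF 𝒪 →+* DualNumber (ResidueField 𝒪)))).subset ?_
    rintro t ⟨ht1, ht2⟩
    refine ⟨{ t with commutes' := fun o => by rw [halg]; exact ht1 o }, ht2, ?_⟩
    ext <;> rfl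
  obtain ⟨R, i1, i2, i3, i4, i5, f, J, hJ1, hJ2, hMJ, hf1, hf2⟩ :=
    exists_ring_of_family (evbar rbar) (evbar_algebraMap rbar) (Fam sd 𝒟) hM
      (fun I hI => fam_le hI) (fun I hI J => fam_up h𝒟 hI J) (fun I hI J hJ => fam_inf h𝒟 hI hJ)
      (fun I hI => fam_nilp hI) (fun I hI => fam_finite hI) hT
  -- basic properties
  have hJ0 : J 0 = ⊤ := by
    rw [eq_top_iff]; have := hMJ 0; rwa [pow_zero, Ideal.one_eq_top] at this
  have hJone : J 1 = RingHom.ker (evbar rbar) := by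
    refine le_antisymm (fam_le (hJ1 1 one_ne_zero)) ?_
    have := hMJ 1; rwa [pow_one] at this
  have hf1' : ∀ x, f x ∈ maximalIdeal R ↔ evbar rbar x = 0 := by
    intro x
    have := hf1 1 x
    rw [pow_one] at this
    rw [this, hJone, RingHom.mem_ker]
  -- structure over 𝒪
  have hlocR : IsLocalHom (algebraMap 𝒪 R) := by
    constructor
    intro o ho
    by_contra hno
    have h1 : o ∈ maximalIdeal 𝒪 := (IsLocalRing.mem_maximalIdeal o).mpr hno
    have h2 : f (algebraMap 𝒪 (PolyF 𝒪) o) ∈ maximalIdeal R := by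
      rw [hf1', evbar_algebraMap, residue_eq_zero_iff]; exact h1
    rw [AlgHom.commutes] at h2
    exact (IsLocalRing.mem_maximalIdeal _).mp h2 ho
  have hresR : Function.Surjective (residue R ∘ algebraMap 𝒪 R) := by
    intro x
    obtain ⟨z, rfl⟩ := residue_surjective x
    obtain ⟨p, hp⟩ := hf2 1 z
    rw [pow_one] at hp
    obtain ⟨o, ho⟩ := residue_surjective (evbar rbar p)
    refine ⟨o, ?_⟩
    show residue R (algebraMap 𝒪 R o) = residue R z
    rw [← sub_eq_zero, ← map_sub, residue_eq_zero_iff]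
    have h3 : f (algebraMap 𝒪 (PolyF 𝒪) o - p) ∈ maximalIdeal R := by
      rw [hf1', map_sub, evbar_algebraMap, ho, sub_self]
    rw [map_sub, AlgHom.commutes] at h3
    have : algebraMap 𝒪 R o - z = (algebraMap 𝒪 R o - f p) - (z - f p) := by ring
    rw [this]
    exact Ideal.sub_mem _ h3 hp
  -- the tautological representations at finite level
  have htaut : ∀ n, n ≠ 0 → ∃ (_ : IsLocalRing (PolyF 𝒪 ⧸ J n)) (r : GQ →* M2 (PolyF 𝒪 ⧸ J n)),
    IsArtinianTestAlgebra 𝒪 (PolyF 𝒪 ⧸ J n) ∧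
    (∀ σ i j, r σ i j = Ideal.Quotient.mk (J n) (MvPolynomial.X (σ, i, j))) ∧ Good sd 𝒟 r :=
    fun n hn => hJ1 n hn
  have hone : ∀ (S : Type) [CommRing S] [Algebra 𝒪 S] (g : PolyF 𝒪 →ₐ[𝒪] S) (i j : Fin 2),
      g ((1 : Matrix (Fin 2) (Fin 2) (PolyF 𝒪)) i j) = (1 : M2 S) i j := by
    intro S _ _ g i j
    simp only [Matrix.one_apply]; split_ifs <;> simp
  have hmem_one : ∀ n i j, MvPolynomial.X ((1 : GQ), i, j) -
      (1 : Matrix (Fin 2) (Fin 2) (PolyF 𝒪)) i j ∈ J n := by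
    intro n i j
    by_cases hn : n = 0
    · rw [hn, hJ0]; trivial
    · obtain ⟨_, r, hA, hr, hg⟩ := htaut n hn
      rw [← Ideal.Quotient.mk_eq_mk_iff_sub_mem, ← hr, map_one]
      exact (hone _ (Ideal.Quotient.mkₐ 𝒪 (J n)) i j).symm
  have hmem_mul : ∀ n (σ τ : GQ) (i j : Fin 2), MvPolynomial.X (σ * τ, i, j) -
      ∑ l, (MvPolynomial.X (σ, i, l) * MvPolynomial.X (τ, l, j) : PolyF 𝒪) ∈ J n := by
    intro n σ τ i j
    by_cases hn : n = 0
    · rw [hn, hJ0]; trivial
    · obtain ⟨_, r, hA, hr, hg⟩ := htaut n hn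
      rw [← Ideal.Quotient.mk_eq_mk_iff_sub_mem, ← hr, map_mul, Matrix.mul_apply, map_sum]
      simp only [map_mul, hr]
  let rR : GQ →* M2 R :=
    { toFun := fun σ => Matrix.of fun i j => f (MvPolynomial.X (σ, i, j))
      map_one' := by
        ext i j
        rw [Matrix.of_apply, ← hone R f]
        apply eq_of_forall_pow
        intro n
        rw [← map_sub, hf1]
        exact hmem_one n i j
      map_mul' := fun σ τ => by
        ext i j
        rw [Matrix.of_apply, Matrix.mul_apply]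
        simp only [Matrix.of_apply, ← map_mul]
        rw [← map_sum]
        apply eq_of_forall_pow
        intro n
        rw [← map_sub, hf1]
        exact hmem_mul n σ τ i j }
  have hrR : ∀ σ i j, rR σ i j = f (MvPolynomial.X (σ, i, j)) := fun _ _ _ => rfl
  have hcR : MatCont R rR := by
    intro n
    by_cases hn : n = 0
    · refine ⟨⊥, inferInstance, fun σ _ i j => ?_⟩
      rw [hn, pow_zero, Ideal.one_eq_top]; trivial
    · obtain ⟨_, r, hA, hr, hg⟩ := htaut n hn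
      obtain ⟨L, hL, hL'⟩ := finiteLevel_of_matCont r (test_nilp hA) hg.cont
      refine ⟨L, hL, fun σ hσ i j => ?_⟩
      rw [Matrix.sub_apply, hrR, ← hone R f, ← map_sub, hf1,
        ← Ideal.Quotient.mk_eq_mk_iff_sub_mem, ← hr, hL' σ hσ]
      exact (hone _ (Ideal.Quotient.mkₐ 𝒪 (J n)) i j).symm
  have hredR : Red rbar rR := by
    intro σ i j o ho
    rw [hrR, ← AlgHom.commutes f o, ← map_sub, hf1', map_sub, evbar_X, evbar_algebraMap, ho, sub_self]
  have hnormR : Norm sd rR := by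
    have key : ∀ (c : GQ →₀ 𝒪) (i j : Fin 2) (v : PolyF 𝒪),
        (∀ n, n ≠ 0 → ∀ (hl : IsLocalRing (PolyF 𝒪 ⧸ J n)) (r : GQ →* M2 (PolyF 𝒪 ⧸ J n)),
          Good sd 𝒟 r → (Finsupp.linearCombination 𝒪 r c) i j = Ideal.Quotient.mk (J n) v) →
        (Finsupp.linearCombination 𝒪 rR c) i j = f v := by
      intro c i j v h
      rw [lc_Xmat f rR hrR]
      apply eq_of_forall_pow
      intro n
      rw [← map_sub, hf1]
      by_cases hn : n = 0
      · rw [hn, hJ0]; trivial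
      · obtain ⟨hl, r, hA, hr, hg⟩ := htaut n hn
        have h1 := h n hn hl r hg
        rw [lc_Xmat (Ideal.Quotient.mkₐ 𝒪 (J n)) r hr] at h1
        rw [← Ideal.Quotient.mk_eq_mk_iff_sub_mem]
        exact h1
    refine ⟨?_, ?_, ?_⟩
    · rw [← map_zero f]
      exact key _ _ _ _ (fun n hn hl r hg => by rw [hg.norm.s1, map_zero])
    · rw [← map_zero f]
      exact key _ _ _ _ (fun n hn hl r hg => by rw [hg.norm.s2, map_zero])
    · rw [← map_one f]
      exact key _ _ _ _ (fun n hn hl r hg => by rw [hg.norm.s3, map_one])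
  have htype : 𝒟 (ofMat rR hcR) := by
    rw [h𝒟.iff_forall_surjective hlocR hresR]
    intro B _ _ _ hB q hq hqs
    obtain ⟨n, hn0, hn⟩ := test_nilp hB
    obtain ⟨r, hr, hg⟩ := fam_push h𝒟 (hJ1 n hn0) hB (q.comp f) (fun p hp => by
      have h1 : f p ∈ maximalIdeal R ^ n := (hf1 n p).mpr hp
      have h2 : maximalIdeal R ≤ (maximalIdeal B).comap (q : R →+* B) := by
        intro a ha
        exact map_nonunit (q : R →+* B) a ha
      have h3 := Ideal.le_comap_pow (q : R →+* B) n (Ideal.pow_right_mono h2 n h1)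
      rw [hn] at h3
      exact h3)
    have hrq : mapRep (q : R →+* B) rR = r := by
      ext σ i j
      rw [mapRep_apply, hrR, hr]; rfl
    refine h𝒟.of_isEquiv hB (isEquiv_symm (ofMat_baseChange (q : R →+* B) hq rR hcR)) ?_
    have h4 := hg.type
    subst hrq
    exact h4
  obtain ⟨ψR, hψR⟩ := exists_psi (𝒪 := 𝒪) (A := R) hlocR
  have hmapψ : ∀ (A : Type) [CommRing A] [IsLocalRing A] [Algebra 𝒪 A]
      [IsLocalHom (algebraMap 𝒪 A)] (o : 𝒪),
      (ResidueField.map (algebraMap 𝒪 A)) (residue 𝒪 o) = residue A (algebraMap 𝒪 A o) :=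
    fun A _ _ _ _ o => ResidueField.map_residue _ o
  refine ⟨{ R := R
            residue_surjective := hresR
            absIrr := habs
            ρ := ofMat rR hcR
            isOfType := htype
            residual_isEquiv := residual_of_red ρbar bbar _ (hmapψ R) rR hcR hredR
            universal := ?_ }⟩
  intro A _ _ _ _ _ _ hresA ρA hρA hresid
  -- normalise `ρA`
  obtain ⟨r0, hc0, hred0, heq0⟩ := exists_red ρbar bbar _ (hmapψ A) ρA hresid
  obtain ⟨u, hredr, hnormr⟩ := slice_exists sd hred0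
  set r := conjRep u r0 with hrdef
  have hcr : MatCont A r := conjRep_cont u r0 hc0
  have heq : ρA.IsEquiv (ofMat r hcr) := isEquiv_trans heq0 (ofMat_conjRep u r0 hc0)
  -- finite level
  have hlevel : ∀ n x, x ∈ J n → ev (𝒪 := 𝒪) r x ∈ maximalIdeal A ^ n := by
    intro n x hx
    by_cases hn : n = 0
    · rw [hn, pow_zero, Ideal.one_eq_top]; trivial
    have hne : maximalIdeal A ^ n ≠ ⊤ := fun h => by
      have : maximalIdeal A = ⊤ := top_le_iff.mp (h ▸ Ideal.pow_le_self hn)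
      exact Ideal.IsPrime.ne_top inferInstance this
    have hnt : Nontrivial (A ⧸ maximalIdeal A ^ n) := Ideal.Quotient.nontrivial_iff.mpr hne
    have hlocn : IsLocalRing (A ⧸ maximalIdeal A ^ n) :=
      IsLocalRing.of_surjective' (Ideal.Quotient.mk (maximalIdeal A ^ n)) Ideal.Quotient.mk_surjective
    have hart : IsArtinianRing (A ⧸ maximalIdeal A ^ n) := by
      rw [isArtinianRing_iff_isNilpotent_maximalIdeal]
      refine ⟨n, ?_⟩
      have h1 : (maximalIdeal A).map (Ideal.Quotient.mk (maximalIdeal A ^ n)) =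
          maximalIdeal (A ⧸ maximalIdeal A ^ n) := by
        apply IsLocalRing.eq_maximalIdeal
        exact Ideal.IsMaximal.map_of_surjective_of_ker_le Ideal.Quotient.mk_surjective (by
          rw [Ideal.mk_ker]; exact Ideal.pow_le_self hn)
      rw [← h1, ← Ideal.map_pow, Ideal.map_quotient_self]; rfl
    have htn : IsArtinianTestAlgebra 𝒪 (A ⧸ maximalIdeal A ^ n) :=
      test_of_surjective (𝒪 := 𝒪) (A := A) inferInstance hresA hart
        (Ideal.Quotient.mkₐ 𝒪 (maximalIdeal A ^ n)) Ideal.Quotient.mk_surjective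
    have hln : IsLocalHom ((Ideal.Quotient.mkₐ 𝒪 (maximalIdeal A ^ n) :
        A →ₐ[𝒪] (A ⧸ maximalIdeal A ^ n)) : A →+* (A ⧸ maximalIdeal A ^ n)) :=
      isLocalHom_of_surjective_residue htn.residue_surjective _
    have hgood : Good sd 𝒟 (mapRep ((Ideal.Quotient.mkₐ 𝒪 (maximalIdeal A ^ n) :
        A →ₐ[𝒪] (A ⧸ maximalIdeal A ^ n)) : A →+* (A ⧸ maximalIdeal A ^ n)) r) := by
      refine ⟨mapRep_cont _ hln r hcr, hredr.map _ hln, hnormr.map _, ?_⟩
      have h1 := (h𝒟.iff_forall_surjective (A := A) inferInstance hresA ρA).mp hρA htn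
        (Ideal.Quotient.mkₐ 𝒪 (maximalIdeal A ^ n)) hln Ideal.Quotient.mk_surjective
      exact h𝒟.of_isEquiv htn (isEquiv_trans (baseChange_congr _ hln heq)
        (ofMat_baseChange _ hln r hcr)) h1
    have hfam := fam_of_good h𝒟 htn hgood
    have hpow : RingHom.ker (evbar rbar) ^ n ≤ RingHom.ker (ev (𝒪 := 𝒪)
        (mapRep ((Ideal.Quotient.mkₐ 𝒪 (maximalIdeal A ^ n) :
        A →ₐ[𝒪] (A ⧸ maximalIdeal A ^ n)) : A →+* (A ⧸ maximalIdeal A ^ n)) r)) := by
      intro p hp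
      have h1 : RingHom.ker (evbar rbar) ≤ (maximalIdeal A).comap (ev (𝒪 := 𝒪) r) := by
        intro p hp
        rw [RingHom.mem_ker, ← residue_ev (A := A) inferInstance hredr] at hp
        exact hp
      have h3 := Ideal.le_comap_pow (ev (𝒪 := 𝒪) r) n (Ideal.pow_right_mono h1 n hp)
      rw [RingHom.mem_ker, ev_comp]
      exact Ideal.Quotient.eq_zero_iff_mem.mpr h3
    have h5 := hJ2 n hn _ hfam hpow hx
    rw [RingHom.mem_ker, ev_comp] at h5
    exact Ideal.Quotient.eq_zero_iff_mem.mp h5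
  -- the maps to finite level
  have hφn : ∀ n, ∃ h : R →ₐ[𝒪] A ⧸ maximalIdeal A ^ n,
      (∀ x, h (f x) = Ideal.Quotient.mk (maximalIdeal A ^ n) (ev (𝒪 := 𝒪) r x)) ∧
      (∀ z ∈ maximalIdeal R ^ n, h z = 0) := by
    intro n
    exact exists_liftAlg f ((Ideal.Quotient.mkₐ 𝒪 (maximalIdeal A ^ n)).comp (ev (𝒪 := 𝒪) r))
      (maximalIdeal R ^ n) (hf2 n) (fun x hx => by
        exact Ideal.Quotient.eq_zero_iff_mem.mpr (hlevel n x ((hf1 n x).mp hx)))
  choose φn hφn1 hφn2 using hφn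
  have hcompat : ∀ {m n : ℕ} (hle : m ≤ n),
      (Ideal.Quotient.factorₐ 𝒪 (Ideal.pow_le_pow_right hle)).comp (φn n) = φn m := by
    intro m n hle
    ext z
    obtain ⟨x, hx⟩ := hf2 n z
    have e : z = f x + (z - f x) := by ring
    rw [e, map_add, map_add, AlgHom.comp_apply, AlgHom.comp_apply, hφn2 n _ hx,
      hφn2 m _ (Ideal.pow_le_pow_right hle hx), hφn1, hφn1, map_zero]
    rfl
  let φ : R →ₐ[𝒪] A := IsAdicComplete.liftAlgHom (maximalIdeal A) φn hcompat
  have hφ : ∀ n z, Ideal.Quotient.mk (maximalIdeal A ^ n) (φ z) = φn n z := fun n z =>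
    IsAdicComplete.mk_liftAlgHom (maximalIdeal A) φn hcompat n z
  have hφf : ∀ x, φ (f x) = ev (𝒪 := 𝒪) r x := by
    intro x
    apply eq_of_forall_pow
    intro n
    rw [← Ideal.Quotient.mk_eq_mk_iff_sub_mem, hφ, hφn1]
  have hφr : mapRep (φ : R →+* A) rR = r := by
    ext σ i j
    rw [mapRep_apply, hrR]
    exact (hφf _).trans (ev_X _ _ _ _)
  have hφloc : IsLocalHom (φ : R →+* A) := isLocalHom_of_surjective_residue hresA φ
  refine ⟨φ, ⟨hφloc, ?_⟩, ?_⟩
  · refine isEquiv_trans (ofMat_baseChange (φ : R →+* A) hφloc rR hcR) (isEquiv_symm ?_)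
    have : ofMat (mapRep (φ : R →+* A) rR) (mapRep_cont (φ : R →+* A) hφloc rR hcR) = ofMat r hcr := by
      congr 1
    rw [this]; exact heq
  · rintro φ' ⟨hφ'loc, hφ'⟩
    have h1 : (ofMat (mapRep (φ' : R →+* A) rR) (mapRep_cont (φ' : R →+* A) hφ'loc rR hcR)).IsEquiv
        (ofMat r hcr) :=
      isEquiv_trans (isEquiv_symm (ofMat_baseChange (φ' : R →+* A) hφ'loc rR hcR))
        (isEquiv_trans hφ' heq)
    obtain ⟨X, hX, h2⟩ := (ofMat_isEquiv_iff _ _ _ _).mp h1
    have h3 : mapRep (φ' : R →+* A) rR = r :=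
      slice_unique sd (hredR.map φ' hφ'loc) hredr (hnormR.map φ') hnormr X hX h2
    have h4 : φ'.comp f = φ.comp f := by
      apply MvPolynomial.algHom_ext
      rintro ⟨σ, i, j⟩
      have h5 : φ' (f (MvPolynomial.X (σ, i, j))) = r σ i j := by
        rw [← h3]; rfl
      have h6 : φ (f (MvPolynomial.X (σ, i, j))) = r σ i j := by
        rw [← hφr]; rfl
      rw [AlgHom.comp_apply, AlgHom.comp_apply, h5, h6]
    ext z
    apply eq_of_forall_pow
    intro n
    obtain ⟨x, hx⟩ := hf2 n z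
    have h7 : φ' (f x) = φ (f x) := AlgHom.congr_fun h4 x
    have e : φ' z - φ z = φ' (z - f x) - φ (z - f x) := by
      rw [map_sub, map_sub, h7]; ring
    rw [e]
    have hpow : ∀ (χ : R →ₐ[𝒪] A), IsLocalHom (χ : R →+* A) → χ (z - f x) ∈ maximalIdeal A ^ n := by
      intro χ hχ
      have h2 : maximalIdeal R ≤ (maximalIdeal A).comap (χ : R →+* A) := by
        intro a ha
        exact map_nonunit (χ : R →+* A) a ha
      exact Ideal.le_comap_pow (χ : R →+* A) n (Ideal.pow_right_mono h2 n hx)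
    exact Ideal.sub_mem _ (hpow φ' hφ'loc) (hpow φ hφloc)

end Fermat.Agent.DefRing
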